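/-
IHARA track (S43 case (C)), package [H4] (helper3), part 1: **the abstract Taylor–Wiles level-`r`
comparison** (pure linear algebra over a commutative ring `𝕋`).

`L = H¹(Γ₀(N))`, `L' = H¹(Γ₀(N r))` (any coefficients, any localisation), `α = res : L → L'`,
`β = cor : L' → L`, `W = w_r`, `T = T_r`, `U = U_r` with the identities of `Lib/LR/HeckeLat`:
`W² = 1`, `β α = r + 1`, `β W α = T`, `α β = 1 + U W`.

If `X² - T X + r = (X - A)(X - B)` on `L` with `A - B`, `1 - A²`, `1 - B²` invertible, then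
`L' = e_A(L) ⊕ e_B(L) ⊕ K`, `K = ker β ∩ ker β W`, `e_A = α A - W α`, and `U` acts as
`A ⊕ B ⊕ (-W)`; in particular the part of `L'` on which `U - A` is (topologically) nilpotent is
`e_A(L) ≅ L`.

* `Ih4Deg` : the identities; `ih4_U_α`, `ih4_U_Wα`, `ih4_U_of_mem_K`, `ih4_U_U_of_mem_K`;
* `ih4_eA`, `ih4_U_eA` : the eigen-embedding and `U ∘ e_A = e_A ∘ A`;
* `ih4_decomp` : the decomposition, as a linear equivalence `L × L × K ≃ L'`.
-/
import Mathlib

set_option autoImplicit false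
set_option linter.unusedSectionVars false
set_option linter.unusedVariables false

namespace Fermat.Agent.Ihara

section LevelR

variable {𝕋 : Type*} [CommRing 𝕋] {L L' : Type*} [AddCommGroup L] [Module 𝕋 L]
  [AddCommGroup L'] [Module 𝕋 L']

/-- the degeneracy identities between the levels `N` and `N r` -/
structure Ih4Deg (r : 𝕋) (α : L →ₗ[𝕋] L') (β : L' →ₗ[𝕋] L) (W : L' →ₗ[𝕋] L')
    (T : L →ₗ[𝕋] L) (U : L' →ₗ[𝕋] L') : Prop where
  W_W : ∀ y, W (W y) = y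
  β_α : ∀ x, β (α x) = (r + 1) • x
  β_W_α : ∀ x, β (W (α x)) = T x
  α_β : ∀ y, α (β y) = y + U (W y)

variable {r : 𝕋} {α : L →ₗ[𝕋] L'} {β : L' →ₗ[𝕋] L} {W : L' →ₗ[𝕋] L'}
  {T : L →ₗ[𝕋] L} {U : L' →ₗ[𝕋] L'} (hD : Ih4Deg r α β W T U)
include hD

theorem ih4_U_eq (y : L') : U y = α (β (W y)) - W y := by
  have h := hD.α_β (W y)
  rw [hD.W_W] at h
  rw [h]
  abel

theorem ih4_U_α (x : L) : U (α x) = α (T x) - W (α x) := by
  rw [ih4_U_eq hD, hD.β_W_α]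

theorem ih4_U_Wα (x : L) : U (W (α x)) = r • α x := by
  rw [ih4_U_eq hD, hD.W_W, hD.β_α, map_smul, add_smul, one_smul]
  abel

/-- the `r`-new part -/
def ih4K (β : L' →ₗ[𝕋] L) (W : L' →ₗ[𝕋] L') : Submodule 𝕋 L' :=
  LinearMap.ker β ⊓ LinearMap.ker (β ∘ₗ W)

omit hD in
theorem ih4_mem_K {y : L'} : y ∈ ih4K β W ↔ β y = 0 ∧ β (W y) = 0 := by
  rw [ih4K, Submodule.mem_inf, LinearMap.mem_ker, LinearMap.mem_ker, LinearMap.comp_apply]

theorem ih4_W_mem_K {y : L'} (hy : y ∈ ih4K β W) : W y ∈ ih4K β W := by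
  rw [ih4_mem_K] at hy ⊢
  exact ⟨hy.2, by rw [hD.W_W]; exact hy.1⟩

theorem ih4_U_of_mem_K {y : L'} (hy : y ∈ ih4K β W) : U y = -W y := by
  rw [ih4_U_eq hD, (ih4_mem_K.mp hy).2, map_zero, zero_sub]

theorem ih4_U_mem_K {y : L'} (hy : y ∈ ih4K β W) : U y ∈ ih4K β W := by
  rw [ih4_U_of_mem_K hD hy]
  exact (ih4K β W).neg_mem (ih4_W_mem_K hD hy)

theorem ih4_U_U_of_mem_K {y : L'} (hy : y ∈ ih4K β W) : U (U y) = y := by
  rw [ih4_U_of_mem_K hD (ih4_U_mem_K hD hy), ih4_U_of_mem_K hD hy, map_neg, neg_neg, hD.W_W]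

/-! ### The eigen-embeddings -/

/-- `e_A = α ∘ A - W ∘ α` -/
def ih4E (α : L →ₗ[𝕋] L') (W : L' →ₗ[𝕋] L') (A : L →ₗ[𝕋] L) : L →ₗ[𝕋] L' :=
  α ∘ₗ A - W ∘ₗ α

omit hD in
theorem ih4E_apply (A : L →ₗ[𝕋] L) (x : L) : ih4E α W A x = α (A x) - W (α x) := rfl

/-- `U ∘ e_A = e_A ∘ A` when `T = A + B`, `B A = r` -/
theorem ih4_U_E {A B : L →ₗ[𝕋] L} (hT : ∀ x, T x = A x + B x) (hBA : ∀ x, B (A x) = r • x)
    (x : L) : U (ih4E α W A x) = ih4E α W A (A x) := by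
  rw [ih4E_apply, ih4E_apply, map_sub, ih4_U_α hD, ih4_U_Wα hD, hT, hBA, map_add, map_smul]
  abel

/-- `β ∘ e_A = -B (1 - A²)` -/
theorem ih4_β_E {A B : L →ₗ[𝕋] L} (hT : ∀ x, T x = A x + B x) (hBA : ∀ x, B (A x) = r • x)
    (x : L) : β (ih4E α W A x) = -B (x - A (A x)) := by
  rw [ih4E_apply, map_sub, hD.β_α, hD.β_W_α, hT, map_sub, hBA, add_smul, one_smul]
  abel

/-- `β W ∘ e_A = -(1 - A²)` -/
theorem ih4_βW_E {A B : L →ₗ[𝕋] L} (hT : ∀ x, T x = A x + B x) (hBA : ∀ x, B (A x) = r • x)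
    (x : L) : β (W (ih4E α W A x)) = -(x - A (A x)) := by
  rw [ih4E_apply, map_sub, map_sub, hD.W_W, hD.β_W_α, hD.β_α, hT, hBA, add_smul, one_smul]
  abel

/-- **the decomposition** `L' = e_A(L) ⊕ e_B(L) ⊕ K`, on which `U` acts as `A ⊕ B ⊕ U|_K`
(`U = -W` and `U² = 1` on `K`) -/
theorem ih4_decomp {A B : L →ₗ[𝕋] L} (hT : ∀ x, T x = A x + B x)
    (hAB : ∀ x, A (B x) = r • x) (hBA : ∀ x, B (A x) = r • x)
    (hΔ : Function.Bijective fun x => A x - B x)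
    (hA : Function.Bijective fun x => x - A (A x))
    (hB : Function.Bijective fun x => x - B (B x)) :
    ∃ Φ : (L × L × ↥(ih4K β W)) ≃ₗ[𝕋] L',
      (∀ x y k, Φ (x, y, k) = ih4E α W A x + ih4E α W B y + (k : L')) ∧
      (∀ x y (k : ↥(ih4K β W)), U (Φ (x, y, k)) = Φ (A x, B y, ⟨U k, ih4_U_mem_K hD k.2⟩)) := by
  have hT' : ∀ x, T x = B x + A x := fun x => by rw [hT, add_comm]
  -- the map
  let Φ₀ : (L × L × ↥(ih4K β W)) →ₗ[𝕋] L' :=
    (ih4E α W A).coprod ((ih4E α W B).coprod (ih4K β W).subtype)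
  have hΦ₀ : ∀ x y k, Φ₀ (x, y, k) = ih4E α W A x + ih4E α W B y + (k : L') := by
    intro x y k
    simp only [Φ₀, LinearMap.coprod_apply, Submodule.subtype_apply]
    abel
  have hinj : Function.Injective Φ₀ := by
    rw [← LinearMap.ker_eq_bot, LinearMap.ker_eq_bot']
    rintro ⟨x, y, k⟩ h0
    rw [hΦ₀] at h0
    have h1 := congrArg β h0
    have h2 := congrArg (fun z => β (W z)) h0
    simp only [map_add, map_zero] at h1 h2
    rw [ih4_β_E hD hT hBA, ih4_β_E hD hT' hAB, (ih4_mem_K.mp k.2).1, add_zero] at h1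
    rw [ih4_βW_E hD hT hBA, ih4_βW_E hD hT' hAB, (ih4_mem_K.mp k.2).2, add_zero] at h2
    set u := x - A (A x) with hu
    set v := y - B (B y) with hv
    have hv' : v = -u := by
      have : u + v = 0 := by
        have := congrArg Neg.neg h2
        simpa [neg_add, add_comm] using this
      exact eq_neg_of_add_eq_zero_right this
    have hu0 : u = 0 := by
      rw [hv', map_neg] at h1
      have h3 : A u - B u = 0 := by
        have : -B u + - -A u = 0 := h1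
        rw [neg_neg] at this
        rw [← this]
        abel
      have := hΔ.1 (a₁ := u) (a₂ := 0) (by simpa using h3)
      exact this
    have hv0 : v = 0 := by rw [hv', hu0, neg_zero]
    have hx : x = 0 := hA.1 (a₁ := x) (a₂ := 0) (by simpa [hu] using hu0)
    have hy : y = 0 := hB.1 (a₁ := y) (a₂ := 0) (by simpa [hv] using hv0)
    rw [hx, hy, map_zero, map_zero, zero_add, zero_add] at h0
    have hk : k = 0 := Subtype.ext h0
    rw [hx, hy, hk]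
    rfl
  have hsurj : Function.Surjective Φ₀ := by
    intro z
    obtain ⟨u, hu⟩ := hΔ.2 (β z - A (β (W z)))
    obtain ⟨x, hx⟩ := hA.2 u
    obtain ⟨y, hy⟩ := hB.2 (-β (W z) - u)
    simp only at hu hx hy
    have hk : z - ih4E α W A x - ih4E α W B y ∈ ih4K β W := by
      rw [ih4_mem_K]
      constructor
      · rw [map_sub, map_sub, ih4_β_E hD hT hBA, ih4_β_E hD hT' hAB, hx, hy, map_sub, map_neg]
        have : β z = A u - B u + A (β (W z)) := by rw [hu]; abel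
        rw [this]
        abel
      · rw [map_sub, map_sub, map_sub, map_sub, ih4_βW_E hD hT hBA, ih4_βW_E hD hT' hAB, hx, hy]
        abel
    refine ⟨(x, y, ⟨_, hk⟩), ?_⟩
    rw [hΦ₀]
    simp only
    abel
  refine ⟨LinearEquiv.ofBijective Φ₀ ⟨hinj, hsurj⟩, ?_, ?_⟩
  · intro x y k
    exact hΦ₀ x y k
  · intro x y k
    show U (Φ₀ (x, y, k)) = Φ₀ (A x, B y, ⟨U k, ih4_U_mem_K hD k.2⟩)
    rw [hΦ₀, hΦ₀, map_add, map_add, ih4_U_E hD hT hBA, ih4_U_E hD hT' hAB]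

/-- **equivariance of the decomposition**: a pair of endomorphisms `S` of `L`, `S'` of `L'`
commuting with `α`, `W`, `A`, `B` and preserving `K` acts diagonally -/
theorem ih4_decomp_equivariant {A B : L →ₗ[𝕋] L}
    (Φ : (L × L × ↥(ih4K β W)) ≃ₗ[𝕋] L')
    (hΦ : ∀ x y k, Φ (x, y, k) = ih4E α W A x + ih4E α W B y + (k : L'))
    (S : L →ₗ[𝕋] L) (S' : L' →ₗ[𝕋] L') (hα : ∀ x, S' (α x) = α (S x))
    (hW : ∀ y, S' (W y) = W (S' y)) (hSA : ∀ x, S (A x) = A (S x)) (hSB : ∀ x, S (B x) = B (S x))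
    (hK : ∀ k ∈ ih4K β W, S' k ∈ ih4K β W) (x y : L) (k : ↥(ih4K β W)) :
    S' (Φ (x, y, k)) = Φ (S x, S y, ⟨S' k, hK k k.2⟩) := by
  rw [hΦ, hΦ, map_add, map_add, ih4E_apply, ih4E_apply, ih4E_apply, ih4E_apply, map_sub, map_sub,
    hα, hα, hW, hW, hα, hα, hSA, hSB]

/-- `K` is stable under a pair of endomorphisms commuting with `β` and `W` -/
theorem ih4_K_stable (S : L →ₗ[𝕋] L) (S' : L' →ₗ[𝕋] L') (hβ : ∀ y, β (S' y) = S (β y))
    (hW : ∀ y, S' (W y) = W (S' y)) {k : L'} (hk : k ∈ ih4K β W) : S' k ∈ ih4K β W := by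
  rw [ih4_mem_K] at hk ⊢
  exact ⟨by rw [hβ, hk.1, map_zero], by rw [← hW, hβ, hk.2, map_zero]⟩

end LevelR

end Fermat.Agent.Ihara
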