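/-
IHARA track (S43 case (C)), package [H4] (helper3), part 2: **the degeneracy identities on the Betti
modules** `parabolicHoms R Γ₀(M) A` (any commutative ring `R`, any `R`-module `A`).

`ih4_deg : Ih4Deg (r : R) res cor w_r T_r U_r` between the levels `N` and `N r` (`r` prime, `r ∤ N`),
from the generic coset identities of `Lib/T2/F/ResCor`, `Lib/T2/F/AL`, `Lib/LR/HeckeCor`; hence the
abstract decomposition `ih4_decomp` applies to `L = Hom_par(Γ₀(N), A)`, `L' = Hom_par(Γ₀(N r), A)`.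
-/
import Mathlib
import Fermat.Agent.Lib.LR.HeckeLat
import Fermat.Agent.Lib.Ihara.H4.LevelR

set_option autoImplicit false
set_option linter.unusedSectionVars false
set_option linter.unusedVariables false
set_option linter.style.haveILetI false

open Matrix MatrixGroups CongruenceSubgroup Fermat.Agent.T1 Fermat.Agent.T2 ModularCurve
  Fermat.Agent.S24Lib ModularCurve.Period Fermat.Agent.LR

namespace Fermat.Agent.Ihara

section Betti

variable (N r : ℕ) [NeZero N] [hr : Fact r.Prime] (h : ¬ r ∣ N)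
  (R : Type*) [CommRing R] (A : Type*) [AddCommGroup A] [Module R A]

/-- the Betti module of level `M` with coefficients in `A` -/
abbrev Ih4H (M : ℕ) : Type _ := ↥(parabolicHoms R (Gamma0 M) A)

/-- restriction `H(N) → H(N r)` -/
noncomputable abbrev ih4Res : Ih4H R A N →ₗ[R] Ih4H R A (N * r) :=
  t2fResPar (t2f5_Gamma0_le N r) R A

/-- transfer `H(N r) → H(N)` -/
noncomputable abbrev ih4Cor : Ih4H R A (N * r) →ₗ[R] Ih4H R A N :=
  (t2fSysC N r h).corPar R A

/-- the Atkin–Lehner involution `w_r` on `H(N r)` -/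
noncomputable abbrev ih4W : Ih4H R A (N * r) →ₗ[R] Ih4H R A (N * r) :=
  (t2fSysW N r h).homPar R A

/-- `T_ℓ` on `H(M)` -/
noncomputable abbrev ih4T (M : ℕ) [NeZero M] (ℓ : ℕ) (hℓ : ℓ.Prime) (hℓM : ¬ ℓ ∣ M) :
    Ih4H R A M →ₗ[R] Ih4H R A M :=
  (tdmSysT M ℓ hℓ hℓM).homPar R A

/-- `U_s` on `H(M)` -/
noncomputable abbrev ih4U (M : ℕ) [NeZero M] (s : ℕ) (hsM : s ∣ M) (hs0 : s ≠ 0) :
    Ih4H R A M →ₗ[R] Ih4H R A M :=
  (tdmSysU M s hsM hs0).homPar R A

/-- **the degeneracy identities** -/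
theorem ih4_deg :
    Ih4Deg ((r : ℕ) : R) (ih4Res N r R A) (ih4Cor N r h R A) (ih4W N r h R A)
      (ih4T R A N r hr.out h) (ih4U R A (N * r) r (Dvd.intro_left N rfl) hr.out.ne_zero) where
  W_W y := by
    apply Subtype.ext
    show (t2fSysW N r h).hom A ((t2fSysW N r h).hom A (y : Additive (Gamma0 (N * r)) →+ A)) = _
    rw [t2fSysW_hom_hom]
  β_α x := by
    apply Subtype.ext
    show (t2fSysC N r h).cor A (t2fRes (t2f5_Gamma0_le N r) A (x : Additive (Gamma0 N) →+ A)) = _
    rw [t2f5_cor_res, Submodule.coe_smul]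
    refine AddMonoidHom.ext fun γ => ?_
    show (r + 1) • (x : Additive (Gamma0 N) →+ A) γ
      = (((r : ℕ) : R) + 1) • (x : Additive (Gamma0 N) →+ A) γ
    rw [add_smul, one_smul, add_smul, one_smul, Nat.cast_smul_eq_nsmul]
  β_W_α x := by
    apply Subtype.ext
    show (t2fSysC N r h).cor A ((t2fSysW N r h).hom A
      (t2fRes (t2f5_Gamma0_le N r) A (x : Additive (Gamma0 N) →+ A))) = _
    rw [lrh_cor_w_res]
    rfl
  α_β y := by
    apply Subtype.ext
    show t2fRes (t2f5_Gamma0_le N r) A ((t2fSysC N r h).cor A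
      (y : Additive (Gamma0 (N * r)) →+ A)) = _
    rw [t2f5_res_cor]
    rfl

end Betti

end Fermat.Agent.Ihara
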