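/-
IHARA track (S43 case (C)), package [H4] (helper3), part 3: **commutation relations on the Betti
modules with coefficients in a domain `R` of characteristic zero**, transferred from the `ℤ`-lattice
(`Lib/LR/HeckeLat`) through the base change isomorphism `tdmBC`, and the compatibilities of the
degeneracy maps with `T_ℓ`, `U_s`.
-/
import Mathlib
import Fermat.Agent.Lib.Ihara.H4.Betti

set_option autoImplicit false
set_option linter.unusedSectionVars false
set_option linter.unusedVariables false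
set_option linter.style.haveILetI false

open Matrix MatrixGroups CongruenceSubgroup Fermat.Agent.T1 Fermat.Agent.T2 ModularCurve
  Fermat.Agent.S24Lib ModularCurve.Period Fermat.Agent.LR
open scoped TensorProduct

namespace Fermat.Agent.Ihara

section OneLevel

variable (R : Type*) [CommRing R] [IsDomain R] [CharZero R] (M : ℕ) [NeZero M]

/-- two coset-system operators which commute on the `ℤ`-lattice commute with `R`-coefficients -/
theorem ih4_comm_of_lattice {ι ι' : Type} [Fintype ι] [Fintype ι']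
    (S : tdmCosetSys (Gamma0 M) ι) (S' : tdmCosetSys (Gamma0 M) ι')
    (hcomm : ∀ x : ↥(tdmL M), S.homPar ℤ ℤ (S'.homPar ℤ ℤ x) = S'.homPar ℤ ℤ (S.homPar ℤ ℤ x))
    (x : Ih4H R R M) : S.homPar R R (S'.homPar R R x) = S'.homPar R R (S.homPar R R x) := by
  obtain ⟨y, rfl⟩ := (tdmBC M R).surjective x
  rw [← tdmBC_homPar, ← tdmBC_homPar, ← tdmBC_homPar, ← tdmBC_homPar]
  congr 1
  induction y using TensorProduct.induction_on with
  | zero => simp
  | tmul a φ =>
    simp only [LinearMap.baseChange_tmul]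
    rw [hcomm]
  | add y₁ y₂ h₁ h₂ => simp only [map_add, h₁, h₂]

theorem ih4_T_T_comm (l l' : ℕ) (hl : l.Prime) (hlM : ¬ l ∣ M) (hl' : l'.Prime) (hl'M : ¬ l' ∣ M)
    (x : Ih4H R R M) :
    ih4T R R M l hl hlM (ih4T R R M l' hl' hl'M x) = ih4T R R M l' hl' hl'M (ih4T R R M l hl hlM x) :=
  ih4_comm_of_lattice R M _ _ (lrh_T_T_comm M l l' hl hlM hl' hl'M) x

theorem ih4_T_U_comm (l s : ℕ) (hl : l.Prime) (hlM : ¬ l ∣ M) (hs : s.Prime) (hsM : s ∣ M)
    (x : Ih4H R R M) :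
    ih4T R R M l hl hlM (ih4U R R M s hsM hs.ne_zero x)
      = ih4U R R M s hsM hs.ne_zero (ih4T R R M l hl hlM x) :=
  ih4_comm_of_lattice R M _ _ (lrh_T_U_comm M l s hl hlM hs hsM) x

theorem ih4_U_U_comm (s s' : ℕ) (hs : s.Prime) (hsM : s ∣ M) (hs' : s'.Prime) (hs'M : s' ∣ M)
    (x : Ih4H R R M) :
    ih4U R R M s hsM hs.ne_zero (ih4U R R M s' hs'M hs'.ne_zero x)
      = ih4U R R M s' hs'M hs'.ne_zero (ih4U R R M s hsM hs.ne_zero x) :=
  ih4_comm_of_lattice R M _ _ (lrh_U_U_comm M s s' hs hsM hs' hs'M) x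

end OneLevel

section TwoLevels

variable (N r : ℕ) [NeZero N] [hr : Fact r.Prime] (h : ¬ r ∣ N)
  (R : Type*) [CommRing R] (A : Type*) [AddCommGroup A] [Module R A]

/-- `res ∘ T_ℓ = T_ℓ ∘ res` -/
theorem ih4_res_T (l : ℕ) (hl : l.Prime) (hlNr : ¬ l ∣ N * r) (hlN : ¬ l ∣ N) (x : Ih4H R A N) :
    ih4Res N r R A (ih4T R A N l hl hlN x) = ih4T R A (N * r) l hl hlNr (ih4Res N r R A x) := by
  apply Subtype.ext
  show t2fRes (t2f5_Gamma0_le N r) A ((tdmSysT N l hl hlN).hom A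
    (x : Additive (Gamma0 N) →+ A)) = _
  rw [t2f5_res_T N r l hl hlNr hlN]
  rfl

/-- `res ∘ U_s = U_s ∘ res` (`s ∣ N`) -/
theorem ih4_res_U (s : ℕ) (hsN : s ∣ N) (hs0 : s ≠ 0) (x : Ih4H R A N) :
    ih4Res N r R A (ih4U R A N s hsN hs0 x)
      = ih4U R A (N * r) s (Dvd.dvd.mul_right hsN r) hs0 (ih4Res N r R A x) := by
  apply Subtype.ext
  show t2fRes (t2f5_Gamma0_le N r) A ((tdmSysU N s hsN hs0).hom A
    (x : Additive (Gamma0 N) →+ A)) = _
  rw [lrh_res_U N r s hsN hs0]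
  rfl

/-- `w_r ∘ T_ℓ = T_ℓ ∘ w_r` -/
theorem ih4_W_T (l : ℕ) (hl : l.Prime) (hlNr : ¬ l ∣ N * r) (y : Ih4H R A (N * r)) :
    ih4W N r h R A (ih4T R A (N * r) l hl hlNr y) = ih4T R A (N * r) l hl hlNr (ih4W N r h R A y) := by
  apply Subtype.ext
  show (t2fSysW N r h).hom A ((tdmSysT (N * r) l hl hlNr).hom A
    (y : Additive (Gamma0 (N * r)) →+ A)) = (tdmSysT (N * r) l hl hlNr).hom A
      ((t2fSysW N r h).hom A (y : Additive (Gamma0 (N * r)) →+ A))
  exact (t2f5_W_T_comm N r h l hl hlNr _).symm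

/-- `w_r ∘ U_s = U_s ∘ w_r` (`s ∣ N`) -/
theorem ih4_W_U (s : ℕ) (hsN : s ∣ N) (hs0 : s ≠ 0) (y : Ih4H R A (N * r)) :
    ih4W N r h R A (ih4U R A (N * r) s (Dvd.dvd.mul_right hsN r) hs0 y)
      = ih4U R A (N * r) s (Dvd.dvd.mul_right hsN r) hs0 (ih4W N r h R A y) := by
  apply Subtype.ext
  show (t2fSysW N r h).hom A ((tdmSysU (N * r) s (Dvd.dvd.mul_right hsN r) hs0).hom A
    (y : Additive (Gamma0 (N * r)) →+ A)) = (tdmSysU (N * r) s (Dvd.dvd.mul_right hsN r) hs0).hom A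
      ((t2fSysW N r h).hom A (y : Additive (Gamma0 (N * r)) →+ A))
  exact (lrh_W_U_comm N r h s hsN hs0 _).symm

end TwoLevels

section TwoLevelsDomain

variable (N r : ℕ) [NeZero N] [hr : Fact r.Prime] (h : ¬ r ∣ N)
  (R : Type*) [CommRing R] [IsDomain R] [CharZero R]

include h in
/-- `res` is injective with coefficients in a domain of characteristic zero -/
theorem ih4_res_injective : Function.Injective (ih4Res N r R R) := by
  rw [injective_iff_map_eq_zero]
  intro x hx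
  have h1 := (ih4_deg N r h R R).β_α x
  rw [hx, map_zero] at h1
  have hr1 : (((r : ℕ) : R) + 1) ≠ 0 := by
    have : (((r : ℕ) : R) + 1) = ((r + 1 : ℕ) : R) := by push_cast; ring
    rw [this]
    exact Nat.cast_ne_zero.mpr (Nat.succ_ne_zero r)
  apply Subtype.ext
  refine AddMonoidHom.ext fun γ => ?_
  have h2 := congrArg (fun z : Ih4H R R N => (z : Additive (Gamma0 N) →+ R) γ) h1
  simp only [Submodule.coe_smul, Submodule.coe_zero, AddMonoidHom.zero_apply] at h2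
  have h3 : (((r : ℕ) : R) + 1) * (x : Additive (Gamma0 N) →+ R) γ = 0 := h2.symm
  exact (mul_eq_zero.mp h3).resolve_left hr1

/-- `cor ∘ T_ℓ = T_ℓ ∘ cor` -/
theorem ih4_cor_T (l : ℕ) (hl : l.Prime) (hlNr : ¬ l ∣ N * r) (hlN : ¬ l ∣ N)
    (y : Ih4H R R (N * r)) :
    ih4Cor N r h R R (ih4T R R (N * r) l hl hlNr y) = ih4T R R N l hl hlN (ih4Cor N r h R R y) := by
  have hD := ih4_deg N r h R R
  apply ih4_res_injective N r h R
  rw [ih4_res_T N r R R l hl hlNr hlN, hD.α_β, hD.α_β, map_add, ih4_W_T,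
    ih4_T_U_comm R (N * r) l r hl hlNr hr.out (Dvd.intro_left N rfl)]

/-- `cor ∘ U_s = U_s ∘ cor` (`s` prime, `s ∣ N`) -/
theorem ih4_cor_U (s : ℕ) (hs : s.Prime) (hsN : s ∣ N) (y : Ih4H R R (N * r)) :
    ih4Cor N r h R R (ih4U R R (N * r) s (Dvd.dvd.mul_right hsN r) hs.ne_zero y)
      = ih4U R R N s hsN hs.ne_zero (ih4Cor N r h R R y) := by
  have hD := ih4_deg N r h R R
  apply ih4_res_injective N r h R
  rw [ih4_res_U N r R R s hsN hs.ne_zero, hD.α_β, hD.α_β, map_add,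
    ih4_W_U N r h R R s hsN hs.ne_zero,
    ih4_U_U_comm R (N * r) s r hs (Dvd.dvd.mul_right hsN r) hr.out (Dvd.intro_left N rfl)]

end TwoLevelsDomain

end Fermat.Agent.Ihara
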