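/-
IHARA track (S43 case (C)), package [H4] (helper3), part 4: **the level-`r` decomposition when `T_r`
acts on `L` through a Henselian local ring** `𝕋` (e.g. the complete local Hecke algebra `T_m` of
level `N`, or the closed `O`-subalgebra of `End(L_m)` generated by `T_r`).

If `X² - T_r X + r ≡ (X - a₀)(X - b₀)` modulo the maximal ideal with `a₀ - b₀`, `1 - a₀²`,
`1 - b₀²` units (a Taylor–Wiles prime: `r ≡ 1`, `ρ̄(Frob_r)` with distinct eigenvalues `a₀, b₀ = a₀⁻¹`,
so `a₀² ≠ 1`), then the roots lift to `a, b ∈ 𝕋` and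
`L' = e_a(L) ⊕ e_b(L) ⊕ K` with `U_r = a ⊕ b ⊕ (-w_r)`.
-/
import Mathlib
import Fermat.Agent.Lib.Ihara.H4.LevelR

set_option autoImplicit false
set_option linter.unusedSectionVars false
set_option linter.unusedVariables false

open Polynomial

namespace Fermat.Agent.Ihara

section Hensel

variable {𝕋 : Type*} [CommRing 𝕋] [HenselianLocalRing 𝕋]

/-- a unit plus an element of the maximal ideal is a unit -/
theorem ih4_isUnit_of_sub_mem {u v : 𝕋} (hu : IsUnit u) (h : v - u ∈ IsLocalRing.maximalIdeal 𝕋) :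
    IsUnit v := by
  by_contra hv
  have hv' : v ∈ IsLocalRing.maximalIdeal 𝕋 := (IsLocalRing.mem_maximalIdeal v).mpr hv
  have : u ∈ IsLocalRing.maximalIdeal 𝕋 := by
    have := (IsLocalRing.maximalIdeal 𝕋).sub_mem hv' h
    simpa using this
  exact (IsLocalRing.mem_maximalIdeal u).mp this hu

/-- **Hensel**: lifting a factorisation `X² - t X + r ≡ (X - a₀)(X - b₀)` with `a₀ - b₀` a unit -/
theorem ih4_hensel_quadratic (t r a₀ b₀ : 𝕋)
    (hsum : a₀ + b₀ - t ∈ IsLocalRing.maximalIdeal 𝕋)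
    (hprod : a₀ * b₀ - r ∈ IsLocalRing.maximalIdeal 𝕋) (hab : IsUnit (a₀ - b₀)) :
    ∃ a b : 𝕋, a + b = t ∧ a * b = r ∧ a - a₀ ∈ IsLocalRing.maximalIdeal 𝕋 ∧
      b - b₀ ∈ IsLocalRing.maximalIdeal 𝕋 := by
  set m := IsLocalRing.maximalIdeal 𝕋 with hm
  set f : 𝕋[X] := X ^ 2 - C t * X + C r with hf
  have hmonic : f.Monic := by
    have h1 : f = X ^ 2 + (-(C t) * X + C r) := by rw [hf]; ring
    rw [h1]
    refine monic_X_pow_add ?_
    have h2 : (-(C t) * X + C r : 𝕋[X]) = C (-t) * X + C r := by rw [C_neg]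
    rw [h2]
    exact lt_of_le_of_lt (degree_linear_le) (by norm_num)
  have heval : f.eval a₀ ∈ m := by
    have : f.eval a₀ = a₀ * (a₀ + b₀ - t) - (a₀ * b₀ - r) := by
      rw [hf]; simp; ring
    rw [this]
    exact m.sub_mem (m.mul_mem_left _ hsum) hprod
  have hder : IsUnit (f.derivative.eval a₀) := by
    have h1 : f.derivative.eval a₀ = 2 * a₀ - t := by
      rw [hf]; simp; ring
    rw [h1]
    refine ih4_isUnit_of_sub_mem hab ?_
    have : 2 * a₀ - t - (a₀ - b₀) = a₀ + b₀ - t := by ring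
    rw [this]
    exact hsum
  obtain ⟨a, ha, haa⟩ := HenselianLocalRing.is_henselian f hmonic a₀ heval hder
  have hroot : a ^ 2 - t * a + r = 0 := by
    have := ha
    rw [IsRoot.def, hf] at this
    simpa using this
  refine ⟨a, t - a, by ring, by linear_combination -hroot, haa, ?_⟩
  have : t - a - b₀ = -(a₀ + b₀ - t) - (a - a₀) := by ring
  rw [this]
  exact m.sub_mem (m.neg_mem hsum) haa

end Hensel

section Decomp

variable {O : Type*} [CommRing O] {L L' : Type*} [AddCommGroup L] [Module O L]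
  [AddCommGroup L'] [Module O L']
  {r : O} {α : L →ₗ[O] L'} {β : L' →ₗ[O] L} {W : L' →ₗ[O] L'}
  {T : L →ₗ[O] L} {U : L' →ₗ[O] L'}
  {𝕋 : Type*} [CommRing 𝕋] [HenselianLocalRing 𝕋] [Algebra O 𝕋]
  [Module 𝕋 L] [IsScalarTower O 𝕋 L]

/-- multiplication by an element of `𝕋`, as an `O`-linear endomorphism of `L` -/
def ih4Mul (a : 𝕋) : L →ₗ[O] L where
  toFun x := a • x
  map_add' := smul_add a
  map_smul' c x := smul_comm a c x

theorem ih4Mul_apply (a : 𝕋) (x : L) : ih4Mul (O := O) a x = a • x := rfl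

theorem ih4Mul_bijective {u : 𝕋} (hu : IsUnit u) (v : 𝕋) (huv : ∀ x : L, u • x = v • x) :
    Function.Bijective fun x : L => v • x := by
  obtain ⟨w, hw⟩ := hu.exists_left_inv
  have hw' : u * w = 1 := by rw [mul_comm]; exact hw
  constructor
  · intro x y hxy
    have h1 : w • (u • x) = w • (u • y) := by
      rw [huv x, huv y]; exact congrArg (fun z => w • z) hxy
    rwa [smul_smul, smul_smul, hw, one_smul, one_smul] at h1
  · intro y
    refine ⟨w • y, ?_⟩
    show v • (w • y) = y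
    rw [← huv, smul_smul, hw', one_smul]

/-- **the level-`r` decomposition at a Taylor–Wiles prime** -/
theorem ih4_decomp_hensel (hD : Ih4Deg r α β W T U) (t : 𝕋) (hT : ∀ x, T x = t • x)
    (a₀ b₀ : 𝕋) (hsum : a₀ + b₀ - t ∈ IsLocalRing.maximalIdeal 𝕋)
    (hprod : a₀ * b₀ - algebraMap O 𝕋 r ∈ IsLocalRing.maximalIdeal 𝕋)
    (hab : IsUnit (a₀ - b₀)) (ha : IsUnit (1 - a₀ ^ 2)) (hb : IsUnit (1 - b₀ ^ 2)) :
    ∃ a b : 𝕋, a + b = t ∧ a * b = algebraMap O 𝕋 r ∧
      a - a₀ ∈ IsLocalRing.maximalIdeal 𝕋 ∧ b - b₀ ∈ IsLocalRing.maximalIdeal 𝕋 ∧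
      ∃ Φ : (L × L × ↥(ih4K β W)) ≃ₗ[O] L',
        (∀ x y k, Φ (x, y, k) =
          (α (a • x) - W (α x)) + (α (b • y) - W (α y)) + (k : L')) ∧
        (∀ x y (k : ↥(ih4K β W)),
          U (Φ (x, y, k)) = Φ (a • x, b • y, ⟨U k, ih4_U_mem_K hD k.2⟩)) := by
  obtain ⟨a, b, hab1, hab2, haa, hbb⟩ := ih4_hensel_quadratic t (algebraMap O 𝕋 r) a₀ b₀ hsum hprod hab
  set m := IsLocalRing.maximalIdeal 𝕋 with hm
  refine ⟨a, b, hab1, hab2, haa, hbb, ?_⟩
  have hTAB : ∀ x, T x = ih4Mul (O := O) a x + ih4Mul (O := O) b x := by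
    intro x
    rw [hT, ih4Mul_apply, ih4Mul_apply, ← add_smul, hab1]
  have hAB : ∀ x : L, ih4Mul (O := O) a (ih4Mul (O := O) b x) = r • x := by
    intro x
    rw [ih4Mul_apply, ih4Mul_apply, smul_smul, hab2, algebraMap_smul]
  have hBA : ∀ x : L, ih4Mul (O := O) b (ih4Mul (O := O) a x) = r • x := by
    intro x
    rw [ih4Mul_apply, ih4Mul_apply, smul_smul, mul_comm, hab2, algebraMap_smul]
  have hu1 : IsUnit (a - b) := by
    refine ih4_isUnit_of_sub_mem hab ?_
    have : a - b - (a₀ - b₀) = (a - a₀) - (b - b₀) := by ring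
    rw [this]
    exact m.sub_mem haa hbb
  have hu2 : IsUnit (1 - a ^ 2) := by
    refine ih4_isUnit_of_sub_mem ha ?_
    have : 1 - a ^ 2 - (1 - a₀ ^ 2) = -((a - a₀) * (a + a₀)) := by ring
    rw [this]
    exact m.neg_mem (m.mul_mem_right _ haa)
  have hu3 : IsUnit (1 - b ^ 2) := by
    refine ih4_isUnit_of_sub_mem hb ?_
    have : 1 - b ^ 2 - (1 - b₀ ^ 2) = -((b - b₀) * (b + b₀)) := by ring
    rw [this]
    exact m.neg_mem (m.mul_mem_right _ hbb)
  have hΔ : Function.Bijective fun x : L => ih4Mul (O := O) a x - ih4Mul (O := O) b x := by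
    have := ih4Mul_bijective (L := L) hu1 (a - b) (fun x => rfl)
    convert this using 2 with x
    rw [ih4Mul_apply, ih4Mul_apply, sub_smul]
  have hA : Function.Bijective fun x : L => x - ih4Mul (O := O) a (ih4Mul (O := O) a x) := by
    have := ih4Mul_bijective (L := L) hu2 (1 - a ^ 2) (fun x => rfl)
    convert this using 2 with x
    rw [ih4Mul_apply, ih4Mul_apply, sub_smul, one_smul, smul_smul, pow_two]
  have hB : Function.Bijective fun x : L => x - ih4Mul (O := O) b (ih4Mul (O := O) b x) := by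
    have := ih4Mul_bijective (L := L) hu3 (1 - b ^ 2) (fun x => rfl)
    convert this using 2 with x
    rw [ih4Mul_apply, ih4Mul_apply, sub_smul, one_smul, smul_smul, pow_two]
  obtain ⟨Φ, hΦ1, hΦ2⟩ := ih4_decomp hD hTAB hAB hBA hΔ hA hB
  refine ⟨Φ, ?_, ?_⟩
  · intro x y k
    rw [hΦ1]
    rfl
  · intro x y k
    rw [hΦ2]
    rfl

end Decomp

end Fermat.Agent.Ihara
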