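/-
IHARA track (S43 case (C)), package [H4] (helper3), part 5a: **ring-level input for the `θ`-part
functor**.  `O` a complete Noetherian local ring, `A` a commutative module-finite `O`-algebra.
Then `A = ∏_I A_I` over the (finitely many) maximal ideals (Prelude), whence

* `ih4p_exists_idem`: complete orthogonal idempotents `e_I`, `e_I ∈ J` for `J ≠ I`, `e_I ∉ I`,
  and every `x ∉ I` is invertible on the `I`-component: `e_I x u = e_I`;
* `ih4p_exists_pow_mem_map`: an element of every maximal ideal is nilpotent modulo `𝔪 A`;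
* `ih4p_hensel_at`: Hensel lifting of a factorisation `X² - tX + r ≡ (X-a₀)(X-b₀)` on a set of
  components.
-/
import Mathlib
import Fermat.Prelude.Thm_Algebra_finite_maximalSpectrum_and_bijective_localization_of_module_finite
import Fermat.Prelude.Thm_IsLocalRing_isAdicComplete_of_module_finite
import Fermat.Agent.Lib.Ihara.H4.Hensel

set_option autoImplicit false
set_option linter.unusedSectionVars false
set_option linter.unusedVariables false
set_option linter.style.haveILetI false

namespace Fermat.Agent.Ihara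

section RingLevel

variable (O : Type) [CommRing O] [IsLocalRing O] [IsNoetherianRing O]
  [IsAdicComplete (IsLocalRing.maximalIdeal O) O]
variable (A : Type) [CommRing A] [Algebra O A] [Module.Finite O A]

include O

/-- the product decomposition `A ≃ ∏_I A_I` -/
noncomputable def ih4pEquiv :
    A ≃+* ((I : MaximalSpectrum A) → Localization.AtPrime I.asIdeal) :=
  RingEquiv.ofBijective
    (RingHom.pi fun I : MaximalSpectrum A => algebraMap A (Localization.AtPrime I.asIdeal))
    (Algebra.finite_maximalSpectrum_and_bijective_localization_of_module_finite (𝒪 := O) A).2.1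

theorem ih4pEquiv_apply (x : A) (I : MaximalSpectrum A) :
    ih4pEquiv O A x I = algebraMap A (Localization.AtPrime I.asIdeal) x := rfl

theorem ih4p_finite_maxSpec : Finite (MaximalSpectrum A) :=
  (Algebra.finite_maximalSpectrum_and_bijective_localization_of_module_finite (𝒪 := O) A).1

/-- the idempotent of the component at `I` -/
noncomputable def ih4pIdem (I : MaximalSpectrum A) : A := by
  classical
  exact (ih4pEquiv O A).symm (Pi.single I 1)

theorem ih4pIdem_map_self (I : MaximalSpectrum A) :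
    algebraMap A (Localization.AtPrime I.asIdeal) (ih4pIdem O A I) = 1 := by
  classical
  have h := congrFun ((ih4pEquiv O A).apply_symm_apply (Pi.single I 1)) I
  rw [ih4pEquiv_apply] at h
  unfold ih4pIdem
  rw [h]
  simp

theorem ih4pIdem_map_of_ne {I J : MaximalSpectrum A} (hJI : J ≠ I) :
    algebraMap A (Localization.AtPrime J.asIdeal) (ih4pIdem O A I) = 0 := by
  classical
  have h := congrFun ((ih4pEquiv O A).apply_symm_apply (Pi.single I 1)) J
  rw [ih4pEquiv_apply] at h
  unfold ih4pIdem
  rw [h]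
  simp [hJI]

theorem ih4p_ext {x y : A}
    (h : ∀ J : MaximalSpectrum A, algebraMap A (Localization.AtPrime J.asIdeal) x =
      algebraMap A (Localization.AtPrime J.asIdeal) y) : x = y :=
  (ih4pEquiv O A).injective (funext h)

theorem ih4pIdem_mul_self (I : MaximalSpectrum A) :
    ih4pIdem O A I * ih4pIdem O A I = ih4pIdem O A I := by
  refine ih4p_ext O A fun J => ?_
  rw [map_mul]
  by_cases hJI : J = I
  · subst hJI
    rw [ih4pIdem_map_self, mul_one]
  · rw [ih4pIdem_map_of_ne O A hJI, mul_zero]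

theorem ih4pIdem_mul_of_ne {I J : MaximalSpectrum A} (h : I ≠ J) :
    ih4pIdem O A I * ih4pIdem O A J = 0 := by
  refine ih4p_ext O A fun K => ?_
  rw [map_mul, map_zero]
  by_cases h1 : K = I
  · have h2 : K ≠ J := fun h2 => h (h1.symm.trans h2)
    rw [ih4pIdem_map_of_ne O A h2, mul_zero]
  · rw [ih4pIdem_map_of_ne O A h1, zero_mul]

theorem ih4pIdem_mem_of_ne {I J : MaximalSpectrum A} (h : I ≠ J) :
    ih4pIdem O A I ∈ J.asIdeal := by
  haveI := J.isMaximal
  rw [← IsLocalization.AtPrime.to_map_mem_maximal_iff (Localization.AtPrime J.asIdeal) J.asIdeal,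
    ih4pIdem_map_of_ne O A (Ne.symm h)]
  exact Ideal.zero_mem _

theorem ih4pIdem_notMem (I : MaximalSpectrum A) : ih4pIdem O A I ∉ I.asIdeal := by
  haveI := I.isMaximal
  rw [← IsLocalization.AtPrime.to_map_mem_maximal_iff (Localization.AtPrime I.asIdeal) I.asIdeal,
    ih4pIdem_map_self]
  exact fun h => (IsLocalRing.maximalIdeal _).ne_top_iff_one.mp
    (IsLocalRing.maximalIdeal.isMaximal _).ne_top h

theorem ih4pIdem_sum [Fintype (MaximalSpectrum A)] :
    ∑ I : MaximalSpectrum A, ih4pIdem O A I = 1 := by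
  classical
  refine ih4p_ext O A fun J => ?_
  rw [map_sum, map_one, Finset.sum_eq_single J]
  · exact ih4pIdem_map_self O A J
  · intro I _ hIJ
    exact ih4pIdem_map_of_ne O A (Ne.symm hIJ)
  · intro h
    exact absurd (Finset.mem_univ J) h

/-- an element outside `I` is invertible on the `I`-component -/
theorem ih4pIdem_exists_inv (I : MaximalSpectrum A) {x : A} (hx : x ∉ I.asIdeal) :
    ∃ u : A, ih4pIdem O A I * x * u = ih4pIdem O A I := by
  classical
  haveI := I.isMaximal
  have hu : IsUnit (algebraMap A (Localization.AtPrime I.asIdeal) x) :=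
    IsLocalization.map_units (Localization.AtPrime I.asIdeal) (⟨x, hx⟩ : I.asIdeal.primeCompl)
  obtain ⟨v, hv⟩ := hu.exists_right_inv
  refine ⟨(ih4pEquiv O A).symm (Pi.single I v), ?_⟩
  refine ih4p_ext O A fun J => ?_
  have h := congrFun ((ih4pEquiv O A).apply_symm_apply (Pi.single I v)) J
  rw [ih4pEquiv_apply] at h
  rw [map_mul, map_mul, h]
  by_cases hJI : J = I
  · subst hJI
    rw [ih4pIdem_map_self, one_mul, Pi.single_eq_same, hv]
  · rw [ih4pIdem_map_of_ne O A hJI, zero_mul, zero_mul]

theorem ih4pIdem_mul_eq_iff (I : MaximalSpectrum A) (x y : A) :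
    ih4pIdem O A I * x = ih4pIdem O A I * y ↔
      algebraMap A (Localization.AtPrime I.asIdeal) x =
        algebraMap A (Localization.AtPrime I.asIdeal) y := by
  constructor
  · intro h
    have := congrArg (algebraMap A (Localization.AtPrime I.asIdeal)) h
    rwa [map_mul, map_mul, ih4pIdem_map_self, one_mul, one_mul] at this
  · intro h
    refine ih4p_ext O A fun J => ?_
    rw [map_mul, map_mul]
    by_cases hJI : J = I
    · subst hJI
      rw [h]
    · rw [ih4pIdem_map_of_ne O A hJI, zero_mul, zero_mul]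

theorem ih4p_mem_iff_map_mem (I : MaximalSpectrum A) (x : A) :
    x ∈ I.asIdeal ↔ algebraMap A (Localization.AtPrime I.asIdeal) x ∈
      IsLocalRing.maximalIdeal (Localization.AtPrime I.asIdeal) := by
  have := I.isMaximal
  exact (IsLocalization.AtPrime.to_map_mem_maximal_iff (Localization.AtPrime I.asIdeal)
    I.asIdeal x).symm

/-- an element of every maximal ideal is nilpotent modulo `𝔪 A` -/
theorem ih4p_exists_pow_mem_map {x : A} (hx : ∀ I : MaximalSpectrum A, x ∈ I.asIdeal) :
    ∃ N : ℕ, x ^ N ∈ Ideal.map (algebraMap O A) (IsLocalRing.maximalIdeal O) := by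
  set 𝔪 := IsLocalRing.maximalIdeal O with h𝔪
  set B := A ⧸ Ideal.map (algebraMap O A) 𝔪 with hB
  haveI : Module.Finite (O ⧸ 𝔪) B := Module.Finite.of_restrictScalars_finite O (O ⧸ 𝔪) B
  haveI : IsArtinianRing (O ⧸ 𝔪) := by
    letI := Ideal.Quotient.field 𝔪
    infer_instance
  haveI : IsArtinianRing B := IsArtinianRing.of_finite (O ⧸ 𝔪) B
  have hjac : Ideal.Quotient.mk (Ideal.map (algebraMap O A) 𝔪) x ∈
      Ideal.jacobson (⊥ : Ideal B) := by
    rw [Ideal.jacobson, Ideal.mem_sInf]
    rintro J ⟨-, hJ⟩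
    have hmax : (Ideal.comap (Ideal.Quotient.mk (Ideal.map (algebraMap O A) 𝔪)) J).IsMaximal :=
      Ideal.comap_isMaximal_of_surjective _ Ideal.Quotient.mk_surjective
    exact hx ⟨_, hmax⟩
  obtain ⟨n, hn⟩ := IsArtinianRing.isNilpotent_jacobson_bot (R := B)
  refine ⟨n, ?_⟩
  have h1 : (Ideal.Quotient.mk (Ideal.map (algebraMap O A) 𝔪) x) ^ n ∈
      (Ideal.jacobson (⊥ : Ideal B)) ^ n := Ideal.pow_mem_pow hjac n
  rw [hn, Ideal.zero_eq_bot, Ideal.mem_bot, ← map_pow, Ideal.Quotient.eq_zero_iff_mem] at h1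
  exact h1

theorem ih4p_exists_pow_mem_map_pow {x : A} (hx : ∀ I : MaximalSpectrum A, x ∈ I.asIdeal)
    (n : ℕ) :
    ∃ N : ℕ, x ^ N ∈ Ideal.map (algebraMap O A) (IsLocalRing.maximalIdeal O ^ n) := by
  obtain ⟨N, hN⟩ := ih4p_exists_pow_mem_map O A hx
  refine ⟨N * n, ?_⟩
  rw [pow_mul, Ideal.map_pow]
  exact Ideal.pow_mem_pow hN n

/-- the components are Henselian local rings -/
theorem ih4p_henselian (I : MaximalSpectrum A) :
    HenselianLocalRing (Localization.AtPrime I.asIdeal) := by
  haveI := I.isMaximal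
  haveI : IsAdicComplete (IsLocalRing.maximalIdeal (Localization.AtPrime I.asIdeal))
      (Localization.AtPrime I.asIdeal) :=
    (Algebra.finite_maximalSpectrum_and_bijective_localization_of_module_finite
      (𝒪 := O) A).2.2.2 I
  refine { is_henselian := fun f hf a₀ h₁ h₂ => ?_ }
  exact HenselianRing.is_henselian f hf a₀ h₁ (h₂.map _)

/-- **Hensel on a set of components**: lifting `X² - tX + r ≡ (X - a₀)(X - b₀)` -/
theorem ih4p_hensel (P : MaximalSpectrum A → Prop) (t r a₀ b₀ : A)
    (hsum : ∀ I, P I → a₀ + b₀ - t ∈ I.asIdeal)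
    (hprod : ∀ I, P I → a₀ * b₀ - r ∈ I.asIdeal)
    (hab : ∀ I, P I → a₀ - b₀ ∉ I.asIdeal) :
    ∃ a b : A, (∀ I, P I → ih4pIdem O A I * (a + b) = ih4pIdem O A I * t) ∧
      (∀ I, P I → ih4pIdem O A I * (a * b) = ih4pIdem O A I * r) ∧
      (∀ I, P I → a - a₀ ∈ I.asIdeal) ∧ (∀ I, P I → b - b₀ ∈ I.asIdeal) := by
  classical
  have key : ∀ I : MaximalSpectrum A, ∃ a b : Localization.AtPrime I.asIdeal, P I →
      (a + b = algebraMap A _ t ∧ a * b = algebraMap A _ r ∧
        a - algebraMap A _ a₀ ∈ IsLocalRing.maximalIdeal (Localization.AtPrime I.asIdeal) ∧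
        b - algebraMap A _ b₀ ∈ IsLocalRing.maximalIdeal (Localization.AtPrime I.asIdeal)) := by
    intro I
    by_cases hI : P I
    · haveI := I.isMaximal
      haveI := ih4p_henselian O A I
      have h1 : algebraMap A (Localization.AtPrime I.asIdeal) a₀ +
          algebraMap A (Localization.AtPrime I.asIdeal) b₀ -
          algebraMap A (Localization.AtPrime I.asIdeal) t ∈
            IsLocalRing.maximalIdeal (Localization.AtPrime I.asIdeal) := by
        rw [← map_add, ← map_sub, ← ih4p_mem_iff_map_mem O A I]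
        exact hsum I hI
      have h2 : algebraMap A (Localization.AtPrime I.asIdeal) a₀ *
          algebraMap A (Localization.AtPrime I.asIdeal) b₀ -
          algebraMap A (Localization.AtPrime I.asIdeal) r ∈
            IsLocalRing.maximalIdeal (Localization.AtPrime I.asIdeal) := by
        rw [← map_mul, ← map_sub, ← ih4p_mem_iff_map_mem O A I]
        exact hprod I hI
      have h3 : IsUnit (algebraMap A (Localization.AtPrime I.asIdeal) a₀ -
          algebraMap A (Localization.AtPrime I.asIdeal) b₀) := by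
        rw [← map_sub]
        exact IsLocalization.map_units (Localization.AtPrime I.asIdeal)
          (⟨a₀ - b₀, hab I hI⟩ : I.asIdeal.primeCompl)
      obtain ⟨a, b, e1, e2, e3, e4⟩ := ih4_hensel_quadratic _ _ _ _ h1 h2 h3
      exact ⟨a, b, fun _ => ⟨e1, e2, e3, e4⟩⟩
    · exact ⟨0, 0, fun h => absurd h hI⟩
  choose a' b' hab' using key
  have hmap : ∀ (f : (I : MaximalSpectrum A) → Localization.AtPrime I.asIdeal)
      (J : MaximalSpectrum A),
      algebraMap A (Localization.AtPrime J.asIdeal) ((ih4pEquiv O A).symm f) = f J := by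
    intro f J
    have h := congrFun ((ih4pEquiv O A).apply_symm_apply f) J
    rwa [ih4pEquiv_apply] at h
  refine ⟨(ih4pEquiv O A).symm a', (ih4pEquiv O A).symm b', ?_, ?_, ?_, ?_⟩
  · intro I hI
    rw [ih4pIdem_mul_eq_iff, map_add, hmap, hmap]
    exact (hab' I hI).1
  · intro I hI
    rw [ih4pIdem_mul_eq_iff, map_mul, hmap, hmap]
    exact (hab' I hI).2.1
  · intro I hI
    rw [ih4p_mem_iff_map_mem O A I, map_sub, hmap]
    exact (hab' I hI).2.2.1
  · intro I hI
    rw [ih4p_mem_iff_map_mem O A I, map_sub, hmap]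
    exact (hab' I hI).2.2.2

/-! ### the idempotent of a set of components -/

/-- the idempotent of the components `I` with `P I` -/
noncomputable def ih4pIdemP (P : MaximalSpectrum A → Prop) : A := by
  classical
  exact (ih4pEquiv O A).symm (fun I => if P I then 1 else 0)

theorem ih4pEquiv_symm_map (f : (I : MaximalSpectrum A) → Localization.AtPrime I.asIdeal)
    (J : MaximalSpectrum A) :
    algebraMap A (Localization.AtPrime J.asIdeal) ((ih4pEquiv O A).symm f) = f J := by
  have h := congrFun ((ih4pEquiv O A).apply_symm_apply f) J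
  rwa [ih4pEquiv_apply] at h

theorem ih4pIdemP_map_pos {P : MaximalSpectrum A → Prop} {J : MaximalSpectrum A} (hJ : P J) :
    algebraMap A (Localization.AtPrime J.asIdeal) (ih4pIdemP O A P) = 1 := by
  classical
  unfold ih4pIdemP
  rw [ih4pEquiv_symm_map, if_pos hJ]

theorem ih4pIdemP_map_neg {P : MaximalSpectrum A → Prop} {J : MaximalSpectrum A} (hJ : ¬ P J) :
    algebraMap A (Localization.AtPrime J.asIdeal) (ih4pIdemP O A P) = 0 := by
  classical
  unfold ih4pIdemP
  rw [ih4pEquiv_symm_map, if_neg hJ]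

theorem ih4pIdemP_mul_self (P : MaximalSpectrum A → Prop) :
    ih4pIdemP O A P * ih4pIdemP O A P = ih4pIdemP O A P := by
  refine ih4p_ext O A fun J => ?_
  rw [map_mul]
  by_cases hJ : P J
  · rw [ih4pIdemP_map_pos O A hJ, mul_one]
  · rw [ih4pIdemP_map_neg O A hJ, mul_zero]

theorem ih4pIdemP_add_not (P : MaximalSpectrum A → Prop) :
    ih4pIdemP O A P + ih4pIdemP O A (fun I => ¬ P I) = 1 := by
  refine ih4p_ext O A fun J => ?_
  rw [map_add, map_one]
  by_cases hJ : P J
  · rw [ih4pIdemP_map_pos O A hJ, ih4pIdemP_map_neg O A (P := fun I => ¬ P I) (not_not.mpr hJ), add_zero]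
  · rw [ih4pIdemP_map_neg O A hJ, ih4pIdemP_map_pos O A (P := fun I => ¬ P I) hJ, zero_add]

theorem ih4pIdemP_mul_not (P : MaximalSpectrum A → Prop) :
    ih4pIdemP O A P * ih4pIdemP O A (fun I => ¬ P I) = 0 := by
  refine ih4p_ext O A fun J => ?_
  rw [map_mul, map_zero]
  by_cases hJ : P J
  · rw [ih4pIdemP_map_neg O A (P := fun I => ¬ P I) (not_not.mpr hJ), mul_zero]
  · rw [ih4pIdemP_map_neg O A hJ, zero_mul]

theorem ih4pIdem_mul_idemP_pos {P : MaximalSpectrum A → Prop} {I : MaximalSpectrum A}
    (hI : P I) : ih4pIdem O A I * ih4pIdemP O A P = ih4pIdem O A I := by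
  refine ih4p_ext O A fun J => ?_
  rw [map_mul]
  by_cases hJI : J = I
  · subst hJI
    rw [ih4pIdemP_map_pos O A hI, mul_one]
  · rw [ih4pIdem_map_of_ne O A hJI, zero_mul]

theorem ih4pIdem_mul_idemP_neg {P : MaximalSpectrum A → Prop} {I : MaximalSpectrum A}
    (hI : ¬ P I) : ih4pIdem O A I * ih4pIdemP O A P = 0 := by
  refine ih4p_ext O A fun J => ?_
  rw [map_mul, map_zero]
  by_cases hJI : J = I
  · subst hJI
    rw [ih4pIdemP_map_neg O A hI, mul_zero]
  · rw [ih4pIdem_map_of_ne O A hJI, zero_mul]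

/-- `e_P x` lies in every maximal ideal when `x ∈ I` for all `I` with `P I` -/
theorem ih4pIdemP_mul_mem {P : MaximalSpectrum A → Prop} {x : A}
    (hx : ∀ I, P I → x ∈ I.asIdeal) (J : MaximalSpectrum A) :
    ih4pIdemP O A P * x ∈ J.asIdeal := by
  by_cases hJ : P J
  · exact J.asIdeal.mul_mem_left _ (hx J hJ)
  · rw [ih4p_mem_iff_map_mem O A J, map_mul, ih4pIdemP_map_neg O A hJ, zero_mul]
    exact Ideal.zero_mem _

/-- `e_P x` is a unit of `e_P A` when `x ∉ I` for all `I` with `P I` -/
theorem ih4pIdemP_exists_inv {P : MaximalSpectrum A → Prop} {x : A}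
    (hx : ∀ I, P I → x ∉ I.asIdeal) :
    ∃ u : A, ih4pIdemP O A P * x * u = ih4pIdemP O A P := by
  classical
  refine ⟨(ih4pEquiv O A).symm (fun I => if P I then
    Ring.inverse (algebraMap A (Localization.AtPrime I.asIdeal) x) else 0), ?_⟩
  refine ih4p_ext O A fun J => ?_
  rw [map_mul, map_mul, ih4pEquiv_symm_map]
  by_cases hJ : P J
  · have := J.isMaximal
    have hu : IsUnit (algebraMap A (Localization.AtPrime J.asIdeal) x) :=
      IsLocalization.map_units (Localization.AtPrime J.asIdeal)
        (⟨x, hx J hJ⟩ : J.asIdeal.primeCompl)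
    rw [ih4pIdemP_map_pos O A hJ, if_pos hJ, one_mul, Ring.mul_inverse_cancel _ hu]
  · rw [ih4pIdemP_map_neg O A hJ, zero_mul, zero_mul]

/-- an element which is `≡` a unit of `O` on the components in `P`, modulo elements of those
maximal ideals, is not in them -/
theorem ih4p_notMem_of_sub_mem {I : MaximalSpectrum A} {x : A} {c : O} (hc : IsUnit c)
    (hx : x - algebraMap O A c ∈ I.asIdeal) : x ∉ I.asIdeal := by
  intro h
  have h1 : algebraMap O A c ∈ I.asIdeal := by
    have := I.asIdeal.sub_mem h hx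
    simpa using this
  have h2 : IsUnit (algebraMap O A c) := hc.map _
  exact I.isMaximal.ne_top (Ideal.eq_top_of_isUnit_mem _ h1 h2)

theorem ih4pIdemP_mul_eq {P : MaximalSpectrum A → Prop} {x y : A}
    (h : ∀ I, P I → ih4pIdem O A I * x = ih4pIdem O A I * y) :
    ih4pIdemP O A P * x = ih4pIdemP O A P * y := by
  refine ih4p_ext O A fun J => ?_
  rw [map_mul, map_mul]
  by_cases hJ : P J
  · rw [ih4pIdemP_map_pos O A hJ, one_mul, one_mul]
    exact (ih4pIdem_mul_eq_iff O A J x y).mp (h J hJ)
  · rw [ih4pIdemP_map_neg O A hJ, zero_mul, zero_mul]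

end RingLevel

end Fermat.Agent.Ihara
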