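/-
IHARA track (S43 case (C)), package [H4] (helper3), part 5b: **the `θ`-part functor over `O`**.

For a commuting family `S i` of `O`-linear endomorphisms of a finite module `H` over a complete
Noetherian local ring `O` (think `S i = T_i - θ̃_i`):

* `ih4pNil 𝔪 S`  = the vectors on which every `S i` is topologically nilpotent (the `θ`-part),
* `ih4pInv S`    = `⨆ i, ⨅ N, range (S i ^ N)` (the complementary part),

both visibly functorial for intertwining maps and stable under the commutant, and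
`ih4p_isCompl : IsCompl (ih4pNil 𝔪 S) (ih4pInv S)`.
-/
import Mathlib
import Fermat.Agent.Lib.Ihara.H4.PartRing

set_option autoImplicit false
set_option linter.unusedSectionVars false
set_option linter.unusedVariables false
set_option linter.style.haveILetI false

namespace Fermat.Agent.Ihara

section Defs

variable {O : Type*} [CommRing O] {H H' : Type*} [AddCommGroup H] [Module O H]
  [AddCommGroup H'] [Module O H'] {ι : Type*}

theorem ih4p_map_mem_smul_top (f : H →ₗ[O] H') (I : Ideal O) {x : H}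
    (hx : x ∈ I • (⊤ : Submodule O H)) : f x ∈ I • (⊤ : Submodule O H') := by
  have h : Submodule.map f (I • ⊤) ≤ I • ⊤ := by
    rw [Submodule.map_smul'']
    exact Submodule.smul_mono le_rfl le_top
  exact h (Submodule.mem_map_of_mem hx)

theorem ih4p_pow_apply_mem_of_le (𝔞 : Ideal O) (S : Module.End O H) {x : H} {n N N' : ℕ}
    (hN : N ≤ N') (h : (S ^ N) x ∈ 𝔞 ^ n • (⊤ : Submodule O H)) :
    (S ^ N') x ∈ 𝔞 ^ n • (⊤ : Submodule O H) := by
  obtain ⟨k, rfl⟩ := Nat.exists_eq_add_of_le hN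
  rw [add_comm, pow_add, Module.End.mul_apply]
  exact ih4p_map_mem_smul_top (S ^ k) _ h

/-- the vectors on which `S` is topologically nilpotent (for the `𝔞`-adic topology) -/
def ih4pNil1 (𝔞 : Ideal O) (S : Module.End O H) : Submodule O H where
  carrier := {x | ∀ n : ℕ, ∃ N : ℕ, (S ^ N) x ∈ 𝔞 ^ n • (⊤ : Submodule O H)}
  add_mem' := by
    intro x y hx hy n
    obtain ⟨N₁, h₁⟩ := hx n
    obtain ⟨N₂, h₂⟩ := hy n
    refine ⟨max N₁ N₂, ?_⟩
    rw [map_add]
    exact Submodule.add_mem _ (ih4p_pow_apply_mem_of_le 𝔞 S (le_max_left _ _) h₁)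
      (ih4p_pow_apply_mem_of_le 𝔞 S (le_max_right _ _) h₂)
  zero_mem' := fun n => ⟨0, by simp⟩
  smul_mem' := by
    intro c x hx n
    obtain ⟨N, h⟩ := hx n
    exact ⟨N, by rw [map_smul]; exact Submodule.smul_mem _ _ h⟩

theorem ih4p_mem_nil1 {𝔞 : Ideal O} {S : Module.End O H} {x : H} :
    x ∈ ih4pNil1 𝔞 S ↔ ∀ n : ℕ, ∃ N : ℕ, (S ^ N) x ∈ 𝔞 ^ n • (⊤ : Submodule O H) := Iff.rfl

/-- **the `θ`-part**: the vectors on which every `S i` is topologically nilpotent -/
def ih4pNil (𝔞 : Ideal O) (S : ι → Module.End O H) : Submodule O H := ⨅ i, ih4pNil1 𝔞 (S i)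

theorem ih4p_mem_nil {𝔞 : Ideal O} {S : ι → Module.End O H} {x : H} :
    x ∈ ih4pNil 𝔞 S ↔ ∀ i, ∀ n : ℕ, ∃ N : ℕ, (S i ^ N) x ∈ 𝔞 ^ n • (⊤ : Submodule O H) := by
  unfold ih4pNil
  rw [Submodule.mem_iInf]
  rfl

/-- the vectors infinitely divisible by `S` -/
def ih4pInv1 (S : Module.End O H) : Submodule O H := ⨅ N : ℕ, LinearMap.range (S ^ N)

theorem ih4p_mem_inv1 {S : Module.End O H} {x : H} :
    x ∈ ih4pInv1 S ↔ ∀ N : ℕ, ∃ y, (S ^ N) y = x := by
  unfold ih4pInv1
  rw [Submodule.mem_iInf]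
  rfl

/-- **the complementary part** -/
def ih4pInv (S : ι → Module.End O H) : Submodule O H := ⨆ i, ih4pInv1 (S i)

/-! ### functoriality -/

theorem ih4p_intertwine_pow {S : Module.End O H} {S' : Module.End O H'} {f : H →ₗ[O] H'}
    (hf : ∀ x, f (S x) = S' (f x)) (N : ℕ) (x : H) : f ((S ^ N) x) = (S' ^ N) (f x) := by
  induction N generalizing x with
  | zero => simp
  | succ k ih => rw [pow_succ, pow_succ, Module.End.mul_apply, Module.End.mul_apply, ih, hf]

theorem ih4pNil1_map {𝔞 : Ideal O} {S : Module.End O H} {S' : Module.End O H'} {f : H →ₗ[O] H'}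
    (hf : ∀ x, f (S x) = S' (f x)) {x : H} (hx : x ∈ ih4pNil1 𝔞 S) : f x ∈ ih4pNil1 𝔞 S' := by
  intro n
  obtain ⟨N, hN⟩ := hx n
  exact ⟨N, by rw [← ih4p_intertwine_pow hf]; exact ih4p_map_mem_smul_top f _ hN⟩

theorem ih4pNil_map {𝔞 : Ideal O} {S : ι → Module.End O H} {S' : ι → Module.End O H'}
    {f : H →ₗ[O] H'} (hf : ∀ i x, f (S i x) = S' i (f x)) {x : H} (hx : x ∈ ih4pNil 𝔞 S) :
    f x ∈ ih4pNil 𝔞 S' := by
  unfold ih4pNil at hx ⊢
  rw [Submodule.mem_iInf] at hx ⊢
  exact fun i => ih4pNil1_map (hf i) (hx i)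

theorem ih4pInv1_map {S : Module.End O H} {S' : Module.End O H'} {f : H →ₗ[O] H'}
    (hf : ∀ x, f (S x) = S' (f x)) {x : H} (hx : x ∈ ih4pInv1 S) : f x ∈ ih4pInv1 S' := by
  rw [ih4p_mem_inv1] at hx ⊢
  intro N
  obtain ⟨y, hy⟩ := hx N
  exact ⟨f y, by rw [← ih4p_intertwine_pow hf, hy]⟩

theorem ih4pInv_map {S : ι → Module.End O H} {S' : ι → Module.End O H'}
    {f : H →ₗ[O] H'} (hf : ∀ i x, f (S i x) = S' i (f x)) {x : H} (hx : x ∈ ih4pInv S) :
    f x ∈ ih4pInv S' := by
  have h : ih4pInv S ≤ Submodule.comap f (ih4pInv S') := by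
    unfold ih4pInv
    refine iSup_le fun i => ?_
    intro y hy
    exact (le_iSup (fun i => ih4pInv1 (S' i)) i) (ih4pInv1_map (hf i) hy)
  exact h hx

/-- the commutant preserves the `θ`-part -/
theorem ih4pNil_commute {𝔞 : Ideal O} {S : ι → Module.End O H} {f : Module.End O H}
    (hf : ∀ i, Commute f (S i)) {x : H} (hx : x ∈ ih4pNil 𝔞 S) : f x ∈ ih4pNil 𝔞 S :=
  ih4pNil_map (f := f) (fun i y => by
    have := (hf i).eq
    exact LinearMap.congr_fun this y) hx

/-- the commutant preserves the complementary part -/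
theorem ih4pInv_commute {S : ι → Module.End O H} {f : Module.End O H}
    (hf : ∀ i, Commute f (S i)) {x : H} (hx : x ∈ ih4pInv S) : f x ∈ ih4pInv S :=
  ih4pInv_map (f := f) (fun i y => by
    have := (hf i).eq
    exact LinearMap.congr_fun this y) hx

end Defs

/-! ### the decomposition for a module over a finite commutative `O`-algebra -/

section ModuleLevel

variable (O : Type) [CommRing O] [IsLocalRing O] [IsNoetherianRing O]
  [IsAdicComplete (IsLocalRing.maximalIdeal O) O]
variable (A : Type) [CommRing A] [Algebra O A] [Module.Finite O A]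
variable {H : Type*} [AddCommGroup H] [Module O H] [Module.Finite O H]
variable (ρ : A →ₐ[O] Module.End O H)
variable {ι : Type*} (s : ι → A)

omit [IsLocalRing O] [IsNoetherianRing O] [IsAdicComplete (IsLocalRing.maximalIdeal O) O]
  [Module.Finite O A] [Module.Finite O H] in
/-- `(J A) H ⊆ J H` -/
theorem ih4p_apply_mem_of_mem_map (J : Ideal O) {a : A} (ha : a ∈ Ideal.map (algebraMap O A) J)
    (x : H) : ρ a x ∈ J • (⊤ : Submodule O H) := by
  unfold Ideal.map at ha
  induction ha using Submodule.span_induction with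
  | mem a ha =>
    obtain ⟨c, hc, rfl⟩ := ha
    rw [AlgHom.commutes, Module.algebraMap_end_apply]
    exact Submodule.smul_mem_smul hc Submodule.mem_top
  | zero => rw [map_zero, LinearMap.zero_apply]; exact Submodule.zero_mem _
  | add a b _ _ iha ihb => rw [map_add, LinearMap.add_apply]; exact Submodule.add_mem _ iha ihb
  | smul b a _ iha =>
    rw [smul_eq_mul, map_mul, Module.End.mul_apply]
    exact ih4p_map_mem_smul_top (ρ b) J iha

omit [IsAdicComplete (IsLocalRing.maximalIdeal O) O] in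
/-- Krull's intersection theorem -/
theorem ih4p_eq_zero_of_forall_mem {x : H}
    (hx : ∀ n : ℕ, x ∈ IsLocalRing.maximalIdeal O ^ n • (⊤ : Submodule O H)) : x = 0 := by
  have h := Ideal.iInf_pow_smul_eq_bot_of_isLocalRing (M := H) (IsLocalRing.maximalIdeal O)
    (IsLocalRing.maximalIdeal.isMaximal O).ne_top
  have hx' : x ∈ ⨅ i : ℕ, IsLocalRing.maximalIdeal O ^ i • (⊤ : Submodule O H) := by
    rw [Submodule.mem_iInf]
    exact hx
  rw [h] at hx'
  exact (Submodule.mem_bot O).mp hx'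

/-- the set of components cut out by the family `s` -/
def ih4pSupp : MaximalSpectrum A → Prop := fun I => ∀ i, s i ∈ I.asIdeal

theorem ih4pIdem_eq_mul_pow {I : MaximalSpectrum A} {y u : A}
    (hu : ih4pIdem O A I * y * u = ih4pIdem O A I) (N : ℕ) :
    ih4pIdem O A I = ih4pIdem O A I * u ^ N * y ^ N := by
  have h2 : (ih4pIdem O A I * y * u) ^ N = ih4pIdem O A I ^ N := by rw [hu]
  have h3 : ih4pIdem O A I ^ (N + 1) = ih4pIdem O A I := by
    have hidem : IsIdempotentElem (ih4pIdem O A I) := ih4pIdem_mul_self O A I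
    exact hidem.pow_succ_eq N
  calc ih4pIdem O A I = ih4pIdem O A I ^ (N + 1) := h3.symm
    _ = ih4pIdem O A I ^ N * ih4pIdem O A I := pow_succ _ _
    _ = (ih4pIdem O A I * y * u) ^ N * ih4pIdem O A I := by rw [h2]
    _ = ih4pIdem O A I ^ (N + 1) * u ^ N * y ^ N := by rw [mul_pow, mul_pow, pow_succ]; ring
    _ = ih4pIdem O A I * u ^ N * y ^ N := by rw [h3]

theorem ih4pIdemP_pow_mul (P : MaximalSpectrum A → Prop) (y : A) (N : ℕ) :
    y ^ (N + 1) * ih4pIdemP O A P = (ih4pIdemP O A P * y) * (ih4pIdemP O A P * y) ^ N := by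
  have hidem : IsIdempotentElem (ih4pIdemP O A P) := ih4pIdemP_mul_self O A _
  rw [← pow_succ', mul_pow, hidem.pow_succ_eq N, mul_comm]

/-- an element lying in all the maximal ideals of `P` is topologically nilpotent on `e_P H` -/
theorem ih4p_exists_pow_apply_mem {P : MaximalSpectrum A → Prop} {y : A}
    (hy : ∀ I, P I → y ∈ I.asIdeal) (n : ℕ) :
    ∃ N : ℕ, ∀ x : H, ρ (ih4pIdemP O A P) x = x →
      (ρ y ^ N) x ∈ IsLocalRing.maximalIdeal O ^ n • (⊤ : Submodule O H) := by
  have hmem : ∀ J : MaximalSpectrum A, ih4pIdemP O A P * y ∈ J.asIdeal :=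
    ih4pIdemP_mul_mem O A hy
  obtain ⟨N, hN⟩ := ih4p_exists_pow_mem_map_pow O A hmem n
  refine ⟨N + 1, fun x hx => ?_⟩
  have h1 : (ρ y ^ (N + 1)) x = ρ (y ^ (N + 1) * ih4pIdemP O A P) x := by
    rw [map_mul, Module.End.mul_apply, hx, map_pow]
  rw [h1, ih4pIdemP_pow_mul, map_mul, Module.End.mul_apply]
  exact ih4p_map_mem_smul_top (ρ (ih4pIdemP O A P * y)) _
    (ih4p_apply_mem_of_mem_map O A ρ _ hN x)

/-- **the `θ`-part is the image of the idempotent `e_s`** -/
theorem ih4p_mem_nil_iff (x : H) :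
    x ∈ ih4pNil (IsLocalRing.maximalIdeal O) (fun i => ρ (s i)) ↔
      ρ (ih4pIdemP O A (ih4pSupp A s)) x = x := by
  classical
  haveI : Fintype (MaximalSpectrum A) := @Fintype.ofFinite _ (ih4p_finite_maxSpec O A)
  constructor
  · intro hx
    rw [ih4p_mem_nil] at hx
    -- components outside the support kill `x`
    have hkill : ∀ I : MaximalSpectrum A, ¬ ih4pSupp A s I → ρ (ih4pIdem O A I) x = 0 := by
      intro I hI
      unfold ih4pSupp at hI
      obtain ⟨i, hi⟩ := not_forall.mp hI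
      obtain ⟨u, hu⟩ := ih4pIdem_exists_inv O A I hi
      refine ih4p_eq_zero_of_forall_mem O fun n => ?_
      obtain ⟨N, hN⟩ := hx i n
      rw [ih4pIdem_eq_mul_pow O A hu N, map_mul, Module.End.mul_apply, map_pow]
      exact ih4p_map_mem_smul_top (ρ (ih4pIdem O A I * u ^ N)) _ hN
    have hnot : ρ (ih4pIdemP O A (fun I => ¬ ih4pSupp A s I)) x = 0 := by
      have h1 : ih4pIdemP O A (fun I => ¬ ih4pSupp A s I) =
          ∑ I : MaximalSpectrum A, ih4pIdem O A I * ih4pIdemP O A (fun I => ¬ ih4pSupp A s I) := by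
        rw [← Finset.sum_mul, ih4pIdem_sum, one_mul]
      rw [h1, map_sum, LinearMap.sum_apply]
      refine Finset.sum_eq_zero fun I _ => ?_
      by_cases hI : ih4pSupp A s I
      · rw [ih4pIdem_mul_idemP_neg O A (P := fun I => ¬ ih4pSupp A s I) (not_not.mpr hI),
          map_zero, LinearMap.zero_apply]
      · rw [ih4pIdem_mul_idemP_pos O A (P := fun I => ¬ ih4pSupp A s I) hI]
        exact hkill I hI
    have h2 := congrArg (fun a : A => ρ a x) (ih4pIdemP_add_not O A (ih4pSupp A s))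
    simp only [map_add, LinearMap.add_apply, hnot, add_zero, map_one, Module.End.one_apply] at h2
    exact h2
  · intro hx
    rw [ih4p_mem_nil]
    intro i n
    obtain ⟨N, hN⟩ := ih4p_exists_pow_apply_mem O A ρ (P := ih4pSupp A s) (y := s i)
      (fun I hI => hI i) n
    exact ⟨N, hN x hx⟩

/-- **the complementary part is the kernel of the idempotent `e_s`** -/
theorem ih4p_mem_inv_iff (x : H) :
    x ∈ ih4pInv (fun i => ρ (s i)) ↔ ρ (ih4pIdemP O A (ih4pSupp A s)) x = 0 := by
  classical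
  haveI : Fintype (MaximalSpectrum A) := @Fintype.ofFinite _ (ih4p_finite_maxSpec O A)
  constructor
  · intro hx
    have hle : ih4pInv (fun i => ρ (s i)) ≤ LinearMap.ker (ρ (ih4pIdemP O A (ih4pSupp A s))) := by
      unfold ih4pInv
      refine iSup_le fun i => ?_
      intro y hy
      rw [LinearMap.mem_ker]
      rw [ih4p_mem_inv1] at hy
      refine ih4p_eq_zero_of_forall_mem O fun n => ?_
      have hmem : ∀ J : MaximalSpectrum A,
          ih4pIdemP O A (ih4pSupp A s) * s i ∈ J.asIdeal :=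
        ih4pIdemP_mul_mem O A (fun I hI => hI i)
      obtain ⟨N, hN⟩ := ih4p_exists_pow_mem_map_pow O A hmem n
      obtain ⟨z, hz⟩ := hy (N + 1)
      have h1 : ρ (ih4pIdemP O A (ih4pSupp A s)) y =
          ρ (s i ^ (N + 1) * ih4pIdemP O A (ih4pSupp A s)) z := by
        rw [← hz, mul_comm, map_mul, Module.End.mul_apply, map_pow]
      rw [h1, ih4pIdemP_pow_mul, map_mul, Module.End.mul_apply]
      exact ih4p_map_mem_smul_top (ρ (ih4pIdemP O A (ih4pSupp A s) * s i)) _
        (ih4p_apply_mem_of_mem_map O A ρ _ hN z)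
    exact LinearMap.mem_ker.mp (hle hx)
  · intro hx
    have h2 := congrArg (fun a : A => ρ a x) (ih4pIdemP_add_not O A (ih4pSupp A s))
    simp only [map_add, LinearMap.add_apply, hx, zero_add, map_one, Module.End.one_apply] at h2
    have h1 : ih4pIdemP O A (fun I => ¬ ih4pSupp A s I) =
        ∑ I : MaximalSpectrum A, ih4pIdem O A I * ih4pIdemP O A (fun I => ¬ ih4pSupp A s I) := by
      rw [← Finset.sum_mul, ih4pIdem_sum, one_mul]
    rw [← h2, h1, map_sum, LinearMap.sum_apply]
    refine Submodule.sum_mem _ fun I _ => ?_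
    by_cases hI : ih4pSupp A s I
    · rw [ih4pIdem_mul_idemP_neg O A (P := fun I => ¬ ih4pSupp A s I) (not_not.mpr hI),
        map_zero, LinearMap.zero_apply]
      exact Submodule.zero_mem _
    · rw [ih4pIdem_mul_idemP_pos O A (P := fun I => ¬ ih4pSupp A s I) hI]
      unfold ih4pSupp at hI
      obtain ⟨i, hi⟩ := not_forall.mp hI
      obtain ⟨u, hu⟩ := ih4pIdem_exists_inv O A I hi
      refine (le_iSup (fun i => ih4pInv1 (ρ (s i))) i) ?_
      rw [ih4p_mem_inv1]
      intro N
      refine ⟨ρ (ih4pIdem O A I * u ^ N) x, ?_⟩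
      rw [← map_pow, ← Module.End.mul_apply, ← map_mul]
      conv_rhs => rw [ih4pIdem_eq_mul_pow O A hu N]
      congr 2
      ring

/-- **the decomposition** -/
theorem ih4p_isCompl_alg :
    IsCompl (ih4pNil (IsLocalRing.maximalIdeal O) (fun i => ρ (s i)))
      (ih4pInv (fun i => ρ (s i))) := by
  have hidem : ih4pIdemP O A (ih4pSupp A s) * ih4pIdemP O A (ih4pSupp A s) =
      ih4pIdemP O A (ih4pSupp A s) := ih4pIdemP_mul_self O A _
  constructor
  · rw [Submodule.disjoint_def]
    intro x h1 h2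
    rw [ih4p_mem_nil_iff] at h1
    rw [ih4p_mem_inv_iff] at h2
    rw [← h1, h2]
  · rw [codisjoint_iff, eq_top_iff]
    intro x _
    have hx : x = ρ (ih4pIdemP O A (ih4pSupp A s)) x +
        (x - ρ (ih4pIdemP O A (ih4pSupp A s)) x) := by abel
    rw [hx]
    refine Submodule.add_mem_sup ?_ ?_
    · rw [ih4p_mem_nil_iff, ← Module.End.mul_apply, ← map_mul, hidem]
    · rw [ih4p_mem_inv_iff, map_sub, ← Module.End.mul_apply, ← map_mul, hidem, sub_self]

/-- elements outside the maximal ideals of `P` act invertibly on `e_P H` -/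
theorem ih4p_exists_inv_apply {P : MaximalSpectrum A → Prop} {y : A}
    (hy : ∀ I, P I → y ∉ I.asIdeal) :
    ∃ u : A, ∀ x : H, ρ (ih4pIdemP O A P) x = x →
      ρ u (ρ y x) = x ∧ ρ y (ρ u x) = x ∧ ρ (ih4pIdemP O A P) (ρ u x) = ρ u x := by
  obtain ⟨u, hu⟩ := ih4pIdemP_exists_inv O A hy
  refine ⟨u, fun x hx => ⟨?_, ?_, ?_⟩⟩
  · have h1 : ρ u (ρ y x) = ρ (ih4pIdemP O A P * y * u) x := by
      rw [show ih4pIdemP O A P * y * u = u * y * ih4pIdemP O A P by ring, map_mul, map_mul,
        Module.End.mul_apply, Module.End.mul_apply, hx]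
    rw [h1, hu, hx]
  · have h1 : ρ y (ρ u x) = ρ (ih4pIdemP O A P * y * u) x := by
      rw [show ih4pIdemP O A P * y * u = y * u * ih4pIdemP O A P by ring, map_mul, map_mul,
        Module.End.mul_apply, Module.End.mul_apply, hx]
    rw [h1, hu, hx]
  · rw [← Module.End.mul_apply, ← map_mul, mul_comm, map_mul, Module.End.mul_apply, hx]

/-- the action of `A` preserves `e_P H` -/
theorem ih4p_idemP_apply_comm (P : MaximalSpectrum A → Prop) (y : A) (x : H)
    (hx : ρ (ih4pIdemP O A P) x = x) : ρ (ih4pIdemP O A P) (ρ y x) = ρ y x := by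
  rw [← Module.End.mul_apply, ← map_mul, mul_comm, map_mul, Module.End.mul_apply, hx]

/-- if `ρ` is injective (faithful action) an element topologically nilpotent on `e_P H` lies in
every maximal ideal of `P` -/
theorem ih4p_mem_of_nilpotent (hρ : Function.Injective ρ) {P : MaximalSpectrum A → Prop} {y : A}
    (hy : ∀ x : H, ρ (ih4pIdemP O A P) x = x →
      ∀ n : ℕ, ∃ N : ℕ, (ρ y ^ N) x ∈ IsLocalRing.maximalIdeal O ^ n • (⊤ : Submodule O H))
    (I : MaximalSpectrum A) (hI : P I) : y ∈ I.asIdeal := by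
  by_contra hyI
  obtain ⟨u, hu⟩ := ih4pIdem_exists_inv O A I hyI
  have hzero : ρ (ih4pIdem O A I) = 0 := by
    ext x
    rw [LinearMap.zero_apply]
    have hx : ρ (ih4pIdemP O A P) (ρ (ih4pIdem O A I) x) = ρ (ih4pIdem O A I) x := by
      rw [← Module.End.mul_apply, ← map_mul, mul_comm, ih4pIdem_mul_idemP_pos O A hI]
    refine ih4p_eq_zero_of_forall_mem O fun n => ?_
    obtain ⟨N, hN⟩ := hy _ hx n
    have h1 : ρ (ih4pIdem O A I) x = ρ (ih4pIdem O A I * u ^ N) ((ρ y ^ N) (ρ (ih4pIdem O A I) x)) := by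
      rw [← map_pow, ← Module.End.mul_apply, ← Module.End.mul_apply, ← map_mul, ← map_mul]
      have h2 : ih4pIdem O A I * u ^ N * y ^ N * ih4pIdem O A I = ih4pIdem O A I := by
        rw [← ih4pIdem_eq_mul_pow O A hu N, ih4pIdem_mul_self]
      rw [h2]
    rw [h1]
    exact ih4p_map_mem_smul_top _ _ hN
  have h0 : ih4pIdem O A I = 0 := hρ (by rw [hzero, map_zero])
  exact ih4pIdem_notMem O A I (by rw [h0]; exact Ideal.zero_mem _)

end ModuleLevel

/-! ### commuting families of endomorphisms -/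

open scoped IsMulCommutative

section EndLevel

theorem ih4p_finite_hom {O : Type*} [CommRing O] [IsNoetherianRing O] {H H' : Type*}
    [AddCommGroup H] [Module O H] [Module.Finite O H] [AddCommGroup H'] [Module O H']
    [Module.Finite O H'] : Module.Finite O (H →ₗ[O] H') := by
  obtain ⟨n, π, hπ⟩ := Module.Finite.exists_fin' O H
  haveI : IsNoetherian O ((Fin n → O) →ₗ[O] H') := isNoetherian_of_isNoetherianRing_of_finite O _
  refine Module.Finite.of_injective (LinearMap.lcomp O H' π) ?_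
  intro f g hfg
  ext x
  obtain ⟨y, rfl⟩ := hπ x
  exact LinearMap.congr_fun hfg y

variable {O : Type} [CommRing O] [IsLocalRing O] [IsNoetherianRing O]
  [IsAdicComplete (IsLocalRing.maximalIdeal O) O]
variable {H : Type} [AddCommGroup H] [Module O H] [Module.Finite O H]
variable {ι : Type*} (S : ι → Module.End O H)

omit [IsLocalRing O] [IsAdicComplete (IsLocalRing.maximalIdeal O) O] in
/-- the commutative finite `O`-algebra generated by a commuting family -/
theorem ih4p_end_data (hS : ∀ i j, Commute (S i) (S j)) :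
    ∃ (A : Type) (_ : CommRing A) (_ : Algebra O A) (_ : Module.Finite O A)
      (ρ : A →ₐ[O] Module.End O H) (s : ι → A), Function.Injective ρ ∧ (∀ i, ρ (s i) = S i) ∧
        (∀ a, ρ a ∈ Algebra.adjoin O (Set.range S)) ∧
        (∀ g ∈ Algebra.adjoin O (Set.range S), ∃ a, ρ a = g) := by
  have hcomm : ∀ a ∈ Set.range S, ∀ b ∈ Set.range S, a * b = b * a := by
    rintro _ ⟨i, rfl⟩ _ ⟨j, rfl⟩
    exact (hS i j).eq
  haveI := Algebra.isMulCommutative_adjoin O hcomm
  haveI : Module.Finite O (Module.End O H) := ih4p_finite_hom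
  haveI : IsNoetherian O (Module.End O H) := isNoetherian_of_isNoetherianRing_of_finite O _
  haveI : Module.Finite O ↥(Algebra.adjoin O (Set.range S)) :=
    Module.Finite.of_injective (Algebra.adjoin O (Set.range S)).val.toLinearMap
      Subtype.val_injective
  exact ⟨↥(Algebra.adjoin O (Set.range S)), inferInstance, inferInstance, inferInstance,
    (Algebra.adjoin O (Set.range S)).val, fun i => ⟨S i, Algebra.subset_adjoin ⟨i, rfl⟩⟩,
    Subtype.val_injective, fun i => rfl, fun a => a.2, fun g hg => ⟨⟨g, hg⟩, rfl⟩⟩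

/-- **(P1)** the `θ`-part is a direct summand -/
theorem ih4p_isCompl (hS : ∀ i j, Commute (S i) (S j)) :
    IsCompl (ih4pNil (IsLocalRing.maximalIdeal O) S) (ih4pInv S) := by
  obtain ⟨A, _, _, _, ρ, s, hinj, hs, -, -⟩ := ih4p_end_data S hS
  have h := ih4p_isCompl_alg O A ρ s
  simp only [hs] at h
  exact h

/-- uniform topological nilpotence on the `θ`-part -/
theorem ih4p_exists_pow_apply_mem_nil (hS : ∀ i j, Commute (S i) (S j)) (i : ι) (n : ℕ) :
    ∃ N : ℕ, ∀ x ∈ ih4pNil (IsLocalRing.maximalIdeal O) S,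
      (S i ^ N) x ∈ IsLocalRing.maximalIdeal O ^ n • (⊤ : Submodule O H) := by
  obtain ⟨A, _, _, _, ρ, s, hinj, hs, -, -⟩ := ih4p_end_data S hS
  obtain ⟨N, hN⟩ := ih4p_exists_pow_apply_mem O A ρ (P := ih4pSupp A s) (y := s i)
    (fun I hI => hI i) n
  refine ⟨N, fun x hx => ?_⟩
  have hx' : x ∈ ih4pNil (IsLocalRing.maximalIdeal O) (fun i => ρ (s i)) := by
    simp only [hs]; exact hx
  rw [ih4p_mem_nil_iff] at hx'
  have := hN x hx'
  rwa [hs] at this

/-- **(P4)** a unit of `O` plus `S i` is invertible on the `θ`-part, with inverse in the closed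
subalgebra generated by the `S j` -/
theorem ih4p_exists_inv_unit_add (hS : ∀ i j, Commute (S i) (S j)) (i : ι) {c : O}
    (hc : IsUnit c) :
    ∃ V : Module.End O H, V ∈ Algebra.adjoin O (Set.range S) ∧
      ∀ x ∈ ih4pNil (IsLocalRing.maximalIdeal O) S,
        V (S i x + c • x) = x ∧ S i (V x) + c • V x = x ∧
          V x ∈ ih4pNil (IsLocalRing.maximalIdeal O) S := by
  obtain ⟨A, _, _, _, ρ, s, hinj, hs, hmem, -⟩ := ih4p_end_data S hS
  have hy : ∀ I, ih4pSupp A s I → s i + algebraMap O A c ∉ I.asIdeal := by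
    intro I hI
    refine ih4p_notMem_of_sub_mem O A hc (c := c) ?_
    simpa using hI i
  obtain ⟨u, hu⟩ := ih4p_exists_inv_apply O A ρ hy
  refine ⟨ρ u, hmem u, fun x hx => ?_⟩
  have hx' : x ∈ ih4pNil (IsLocalRing.maximalIdeal O) (fun i => ρ (s i)) := by
    simp only [hs]; exact hx
  rw [ih4p_mem_nil_iff] at hx'
  obtain ⟨h1, h2, h3⟩ := hu x hx'
  have hy' : ∀ z : H, ρ (s i + algebraMap O A c) z = S i z + c • z := by
    intro z
    rw [map_add, LinearMap.add_apply, hs, AlgHom.commutes, Module.algebraMap_end_apply]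
  rw [hy'] at h1
  rw [hy'] at h2
  refine ⟨h1, h2, ?_⟩
  have : ρ u x ∈ ih4pNil (IsLocalRing.maximalIdeal O) (fun i => ρ (s i)) := by
    rw [ih4p_mem_nil_iff]; exact h3
  simpa only [hs] using this

/-- **(P4)** `S i + c` is bijective on the `θ`-part for every unit `c` of `O` -/
theorem ih4p_unit_add_bijOn (hS : ∀ i j, Commute (S i) (S j)) (i : ι) {c : O} (hc : IsUnit c) :
    Set.BijOn (fun x => S i x + c • x) (ih4pNil (IsLocalRing.maximalIdeal O) S)
      (ih4pNil (IsLocalRing.maximalIdeal O) S) := by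
  obtain ⟨V, -, hV⟩ := ih4p_exists_inv_unit_add S hS i hc
  refine ⟨?_, ?_, ?_⟩
  · intro x hx
    have h1 : S i x ∈ ih4pNil (IsLocalRing.maximalIdeal O) S :=
      ih4pNil_commute (fun j => hS i j) hx
    exact Submodule.add_mem _ h1 (Submodule.smul_mem _ _ hx)
  · intro x hx y hy hxy
    have h1 := (hV x hx).1
    have h2 := (hV y hy).1
    simp only at hxy
    rw [← h1, ← h2, hxy]
  · intro x hx
    exact ⟨V x, (hV x hx).2.2, (hV x hx).2.1⟩

end EndLevel

end Fermat.Agent.Ihara
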