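/-
IHARA track (S43 case (C)), package [H4] (helper3), part 6: **the level comparison at a
Taylor–Wiles prime, integrally and without any global factorisation**.

`L = H¹(Γ₀(N), O)`, `L' = H¹(Γ₀(N r), O)` finite over a complete Noetherian local ring `O`, with the
degeneracy identities `Ih4Deg r α β W T U`.  If `r = a₀ b₀` with `a₀`, `a₀ - b₀`, `1 - a₀²` units
of `O`, then the part of `L'` where `U_r - a₀` is topologically nilpotent is isomorphic to the part
of `L` where `T_r - (a₀ + b₀)` is topologically nilpotent, via `x ↦ α (a x) - W (α x)`, `a` the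
Hensel root `≡ a₀` of `X² - T_r X + r` in the closed subalgebra generated by `T_r`.
-/
import Mathlib
import Fermat.Agent.Lib.Ihara.H4.Part

set_option autoImplicit false
set_option linter.unusedSectionVars false
set_option linter.unusedVariables false
set_option linter.style.haveILetI false

namespace Fermat.Agent.Ihara

section Algebra1

variable {O : Type*} [CommRing O] {L L' : Type*} [AddCommGroup L] [Module O L]
  [AddCommGroup L'] [Module O L']

/-- `S^N ∘ γ ∘ U^N = γ ∘ Q^N` from `S ∘ γ ∘ U = γ ∘ Q` and `Q U = U Q` -/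
theorem ih4p_pow_intertwine {S : Module.End O L} {γ : L' →ₗ[O] L} {U Q : Module.End O L'}
    (hQU : Commute Q U) (h : ∀ z, S (γ (U z)) = γ (Q z)) (N : ℕ) (z : L') :
    (S ^ N) (γ ((U ^ N) z)) = γ ((Q ^ N) z) := by
  induction N generalizing z with
  | zero => simp
  | succ k ih =>
    have h1 : (U ^ (k + 1)) z = U ((U ^ k) z) := by rw [pow_succ', Module.End.mul_apply]
    have h2 : (S ^ (k + 1)) (γ (U ((U ^ k) z))) = (S ^ k) (S (γ (U ((U ^ k) z)))) := by
      rw [pow_succ, Module.End.mul_apply]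
    rw [h1, h2, h]
    have h3 : Q ((U ^ k) z) = (U ^ k) (Q z) := by
      have := (hQU.pow_right k).eq
      exact LinearMap.congr_fun this z
    rw [h3, ih, pow_succ, Module.End.mul_apply]

theorem ih4pNil_unit (𝔞 : Ideal O) (S : Module.End O L) :
    ih4pNil 𝔞 (fun _ : Unit => S) = ih4pNil1 𝔞 S := by
  unfold ih4pNil
  exact iInf_const

end Algebra1

section OneStep

variable (O : Type) [CommRing O] [IsLocalRing O] [IsNoetherianRing O]
  [IsAdicComplete (IsLocalRing.maximalIdeal O) O]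
variable (A : Type) [CommRing A] [Algebra O A] [Module.Finite O A]
variable {L L' : Type} [AddCommGroup L] [Module O L] [Module.Finite O L]
  [AddCommGroup L'] [Module O L'] [Module.Finite O L']
variable (ρ : A →ₐ[O] Module.End O L)
variable {r : O} {α : L →ₗ[O] L'} {β : L' →ₗ[O] L} {W : L' →ₗ[O] L'} {U : L' →ₗ[O] L'}

omit [IsLocalRing O] [IsNoetherianRing O] [IsAdicComplete (IsLocalRing.maximalIdeal O) O]
  [Module.Finite O A] [Module.Finite O L] in
/-- an identity modulo the idempotent `e` holds on `e L` -/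
theorem ih4p_apply_eq_of_mul_eq {e y₁ y₂ : A} (h : e * y₁ = e * y₂) {x : L} (hx : ρ e x = x) :
    ρ y₁ x = ρ y₂ x := by
  have h1 : ρ y₁ x = ρ (e * y₁) x := by
    rw [mul_comm, map_mul, Module.End.mul_apply, hx]
  have h2 : ρ y₂ x = ρ (e * y₂) x := by
    rw [mul_comm, map_mul, Module.End.mul_apply, hx]
  rw [h1, h2, h]

omit [IsLocalRing O] [IsNoetherianRing O] [IsAdicComplete (IsLocalRing.maximalIdeal O) O]
  [Module.Finite O A] [Module.Finite O L] in
theorem ih4p_apply_idem_comm {e : A} (y : A) {x : L} (hx : ρ e x = x) : ρ e (ρ y x) = ρ y x := by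
  rw [← Module.End.mul_apply, ← map_mul, mul_comm, map_mul, Module.End.mul_apply, hx]

omit [IsLocalRing O] [IsNoetherianRing O] [IsAdicComplete (IsLocalRing.maximalIdeal O) O]
  [Module.Finite O L] [Module.Finite O L'] in
/-- `β U = r β W` and `β W U = T β W - β` -/
theorem ih4_β_U {T : L →ₗ[O] L} (hD : Ih4Deg r α β W T U) (z : L') :
    β (U z) = r • β (W z) := by
  rw [ih4_U_eq hD z, map_sub, hD.β_α, add_smul, one_smul]
  abel

omit [IsLocalRing O] [IsNoetherianRing O] [IsAdicComplete (IsLocalRing.maximalIdeal O) O]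
  [Module.Finite O L] [Module.Finite O L'] in
theorem ih4_βW_U {T : L →ₗ[O] L} (hD : Ih4Deg r α β W T U) (z : L') :
    β (W (U z)) = T (β (W z)) - β z := by
  rw [ih4_U_eq hD z, map_sub, map_sub, hD.β_W_α, hD.W_W]

/-- **the level comparison at a Taylor–Wiles prime**, for a module over a finite commutative
`O`-algebra `A ∋ t = T_r` -/
theorem ih4p_one_step_alg (t : A) (hD : Ih4Deg r α β W (ρ t) U)
    (a₀ b₀ : O) (hprod : a₀ * b₀ = r) (ha₀ : IsUnit a₀) (hab : IsUnit (a₀ - b₀))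
    (ha : IsUnit (1 - a₀ ^ 2)) :
    ∃ a v : A,
      (∀ I : MaximalSpectrum A, t - algebraMap O A (a₀ + b₀) ∈ I.asIdeal →
        a - algebraMap O A a₀ ∈ I.asIdeal) ∧
      (∀ n : ℕ, ∃ N : ℕ, ∀ x ∈ ih4pNil1 (IsLocalRing.maximalIdeal O)
          (ρ t - algebraMap O (Module.End O L) (a₀ + b₀)),
        ((ρ a - algebraMap O (Module.End O L) a₀) ^ N) x ∈
          IsLocalRing.maximalIdeal O ^ n • (⊤ : Submodule O L)) ∧
      (∀ x ∈ ih4pNil1 (IsLocalRing.maximalIdeal O)
          (ρ t - algebraMap O (Module.End O L) (a₀ + b₀)),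
        ρ a (ρ a x) - ρ t (ρ a x) + r • x = 0 ∧
        ρ a x ∈ ih4pNil1 (IsLocalRing.maximalIdeal O)
          (ρ t - algebraMap O (Module.End O L) (a₀ + b₀)) ∧
        U (α (ρ a x) - W (α x)) = α (ρ a (ρ a x)) - W (α (ρ a x))) ∧
      Set.BijOn (fun x => α (ρ a x) - W (α x))
        (ih4pNil1 (IsLocalRing.maximalIdeal O) (ρ t - algebraMap O (Module.End O L) (a₀ + b₀)))
        (ih4pNil1 (IsLocalRing.maximalIdeal O) (U - algebraMap O (Module.End O L') a₀)) ∧
      (∀ x ∈ ih4pNil1 (IsLocalRing.maximalIdeal O)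
          (ρ t - algebraMap O (Module.End O L) (a₀ + b₀)),
        ρ v (β (W (α (ρ a x) - W (α x)))) = x) := by
  classical
  set 𝔪 := IsLocalRing.maximalIdeal O with h𝔪
  set s : A := t - algebraMap O A (a₀ + b₀) with hs
  set P : MaximalSpectrum A → Prop := ih4pSupp A (fun _ : Unit => s) with hP
  set e : A := ih4pIdemP O A P with he
  have hPs : ∀ I, P I → s ∈ I.asIdeal := fun I h => h ()
  have hρs : ρ s = ρ t - algebraMap O (Module.End O L) (a₀ + b₀) := by
    rw [hs, map_sub, AlgHom.commutes]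
  -- membership in `L_t`
  have hLt : ∀ x : L, x ∈ ih4pNil1 𝔪 (ρ t - algebraMap O (Module.End O L) (a₀ + b₀)) ↔
      ρ e x = x := by
    intro x
    rw [← hρs, ← ih4pNil_unit 𝔪 (ρ s)]
    exact ih4p_mem_nil_iff O A ρ (fun _ : Unit => s) x
  -- Hensel
  obtain ⟨a, b, hab1, hab2, haa, hbb⟩ := ih4p_hensel O A P t (algebraMap O A r)
    (algebraMap O A a₀) (algebraMap O A b₀)
    (fun I hI => by
      have h1 : algebraMap O A a₀ + algebraMap O A b₀ - t = -s := by rw [hs, map_add]; ring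
      rw [h1]; exact I.asIdeal.neg_mem (hPs I hI))
    (fun I hI => by
      rw [← map_mul, hprod, sub_self]; exact Ideal.zero_mem _)
    (fun I hI => by
      rw [← map_sub]
      refine ih4p_notMem_of_sub_mem O A hab (c := a₀ - b₀) ?_
      rw [sub_self]; exact Ideal.zero_mem _)
  have hE1 : e * (a + b) = e * t := ih4pIdemP_mul_eq O A hab1
  have hE2 : e * (a * b) = e * algebraMap O A r := ih4pIdemP_mul_eq O A hab2
  -- derived identities modulo `e`
  have hR1 : e * (t * a - algebraMap O A r) = e * (a * a) := by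
    linear_combination (-a) * hE1 + hE2
  have hR2 : e * ((algebraMap O A r + 1) * a - t) = e * (b * (a * a - 1)) := by
    linear_combination (-a) * hE2 + hE1
  have hR3 : e * (t * a - algebraMap O A r - 1) = e * (a * a - 1) := by
    linear_combination hR1
  have hR4 : e * (algebraMap O A r - b * t + b * b) = e * 0 := by
    linear_combination b * hE1 - hE2
  set A₀ : A := algebraMap O A a₀ with hA₀
  set Φ : L →ₗ[O] L' := ih4E α W (ρ a) with hΦ
  have hΦx : ∀ x, Φ x = α (ρ a x) - W (α x) := fun x => rfl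
  have hRapply : ∀ x : L, ρ (algebraMap O A r) x = r • x := by
    intro x; rw [AlgHom.commutes, Module.algebraMap_end_apply]
  -- facts on `L_t`
  have hTa : ∀ x : L, ρ e x = x → ρ t (ρ a x) - r • x = ρ a (ρ a x) := by
    intro x hx
    have := ih4p_apply_eq_of_mul_eq O A ρ hR1 hx
    rwa [map_sub, LinearMap.sub_apply, map_mul, Module.End.mul_apply, hRapply, map_mul,
      Module.End.mul_apply] at this
  have hS1 : ∀ x : L, ρ e x = x → U (Φ x) = Φ (ρ a x) := by
    intro x hx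
    rw [hΦx, hΦx, map_sub, ih4_U_α hD, ih4_U_Wα hD, ← hTa x hx, map_sub, map_smul]
    abel
  have hS3a : ∀ x : L, ρ e x = x → β (Φ x) = ρ (b * (a * a - 1)) x := by
    intro x hx
    have := ih4p_apply_eq_of_mul_eq O A ρ hR2 hx
    rw [hΦx, map_sub, hD.β_α, hD.β_W_α, ← this, map_sub, LinearMap.sub_apply, map_mul,
      Module.End.mul_apply, map_add, map_one, LinearMap.add_apply, Module.End.one_apply, hRapply,
      add_smul, one_smul]
  have hS3b : ∀ x : L, ρ e x = x → β (W (Φ x)) = ρ (a * a - 1) x := by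
    intro x hx
    have := ih4p_apply_eq_of_mul_eq O A ρ hR3 hx
    rw [hΦx, map_sub, map_sub, hD.β_W_α, hD.W_W, hD.β_α, ← this, map_sub, map_sub,
      LinearMap.sub_apply, LinearMap.sub_apply, map_mul, Module.End.mul_apply, hRapply, map_one,
      Module.End.one_apply, add_smul, one_smul]
    abel
  -- units
  have hu1 : ∀ I, P I → a * a - 1 ∉ I.asIdeal := by
    intro I hI
    have hc : IsUnit (a₀ ^ 2 - 1) := by
      have : a₀ ^ 2 - 1 = -(1 - a₀ ^ 2) := by ring
      rw [this]; exact ha.neg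
    refine ih4p_notMem_of_sub_mem O A hc ?_
    have h1 : a * a - 1 - algebraMap O A (a₀ ^ 2 - 1) = (a - A₀) * (a + A₀) := by
      rw [map_sub, map_pow, map_one]; ring
    rw [h1]
    exact I.asIdeal.mul_mem_right _ (haa I hI)
  obtain ⟨u1, hu1'⟩ := ih4p_exists_inv_apply O A ρ hu1
  have hu2 : ∀ I, P I → b - A₀ ∉ I.asIdeal := by
    intro I hI
    have hc : IsUnit (b₀ - a₀) := by
      have : b₀ - a₀ = -(a₀ - b₀) := by ring
      rw [this]; exact hab.neg
    refine ih4p_notMem_of_sub_mem O A hc ?_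
    have h1 : b - A₀ - algebraMap O A (b₀ - a₀) = b - algebraMap O A b₀ := by
      rw [map_sub]; ring
    rw [h1]
    exact hbb I hI
  obtain ⟨u2, hu2e⟩ := ih4pIdemP_exists_inv O A hu2
  have hidem : e * e = e := ih4pIdemP_mul_self O A P
  have hu2N : ∀ N : ℕ, e * (u2 ^ N * (b - A₀) ^ N) = e * 1 := by
    intro N
    induction N with
    | zero => simp
    | succ k ih =>
      have : e * (u2 ^ (k + 1) * (b - A₀) ^ (k + 1)) =
          (e * (u2 ^ k * (b - A₀) ^ k)) * (e * (b - A₀) * u2) := by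
        rw [pow_succ, pow_succ]
        linear_combination (u2 ^ k * u2 * ((b - A₀) ^ k * (b - A₀))) * hidem.symm
      rw [this, ih, hu2e, mul_one, hidem]
  -- nilpotence of `a - a₀`
  have hnil : ∀ n : ℕ, ∃ N : ℕ, ∀ x : L, ρ e x = x →
      (ρ (a - A₀) ^ N) x ∈ 𝔪 ^ n • (⊤ : Submodule O L) :=
    fun n => ih4p_exists_pow_apply_mem O A ρ haa n
  set a₀' : Module.End O L' := algebraMap O (Module.End O L') a₀ with ha₀'
  have ha₀'x : ∀ y : L', a₀' y = a₀ • y := fun y => by
    rw [ha₀', Module.algebraMap_end_apply]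
  have hρaA₀ : ∀ x : L, ρ (a - A₀) x = ρ a x - a₀ • x := by
    intro x
    rw [map_sub, LinearMap.sub_apply, hA₀, AlgHom.commutes, Module.algebraMap_end_apply]
  -- (S2)
  have hS2a : ∀ x : L, ρ e x = x → (U - a₀') (Φ x) = Φ (ρ (a - A₀) x) := by
    intro x hx
    rw [LinearMap.sub_apply, hS1 x hx, ha₀'x, hρaA₀, map_sub, map_smul]
  have hS2b : ∀ N : ℕ, ∀ x : L, ρ e x = x →
      ((U - a₀') ^ N) (Φ x) = Φ (ρ ((a - A₀) ^ N) x) := by
    intro N
    induction N with
    | zero => intro x hx; simp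
    | succ k ih =>
      intro x hx
      rw [pow_succ, Module.End.mul_apply, hS2a x hx, ih _ (ih4p_apply_idem_comm O A ρ _ hx),
        pow_succ, map_mul, Module.End.mul_apply]
  have hS2 : ∀ x : L, ρ e x = x → Φ x ∈ ih4pNil1 𝔪 (U - a₀') := by
    intro x hx n
    obtain ⟨N, hN⟩ := hnil n
    refine ⟨N, ?_⟩
    rw [hS2b N x hx, map_pow]
    exact ih4p_map_mem_smul_top Φ _ (hN x hx)
  -- the `L'`-side
  have hcommU : ∀ i j : Unit, Commute ((fun _ : Unit => U - a₀') i) ((fun _ : Unit => U - a₀') j) :=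
    fun _ _ => Commute.refl _
  obtain ⟨V, -, hV⟩ := ih4p_exists_inv_unit_add (fun _ : Unit => U - a₀') hcommU () ha₀
  rw [ih4pNil_unit] at hV
  have hUV : ∀ z ∈ ih4pNil1 𝔪 (U - a₀'), U (V z) = z ∧ V z ∈ ih4pNil1 𝔪 (U - a₀') := by
    intro z hz
    obtain ⟨-, h2, h3⟩ := hV z hz
    refine ⟨?_, h3⟩
    rw [LinearMap.sub_apply, ha₀'x, sub_add_cancel] at h2
    exact h2
  have hUVN : ∀ N : ℕ, ∀ z ∈ ih4pNil1 𝔪 (U - a₀'),
      (V ^ N) z ∈ ih4pNil1 𝔪 (U - a₀') ∧ (U ^ N) ((V ^ N) z) = z := by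
    intro N
    induction N with
    | zero => intro z hz; exact ⟨by simpa using hz, by simp⟩
    | succ k ih =>
      intro z hz
      obtain ⟨h1, h2⟩ := hUV z hz
      obtain ⟨h3, h4⟩ := ih (V z) h2
      refine ⟨by rw [pow_succ, Module.End.mul_apply]; exact h3, ?_⟩
      rw [pow_succ V, Module.End.mul_apply, pow_succ' U, Module.End.mul_apply, h4, h1]
  have hUstab : ∀ z ∈ ih4pNil1 𝔪 (U - a₀'), U z ∈ ih4pNil1 𝔪 (U - a₀') := by
    intro z hz
    refine ih4pNil1_map (f := U) (S := U - a₀') (S' := U - a₀') (fun x => ?_) hz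
    rw [LinearMap.sub_apply, LinearMap.sub_apply, map_sub, ha₀'x, ha₀'x, map_smul]
  -- Claim A
  set b₀' : Module.End O L' := algebraMap O (Module.End O L') b₀ with hb₀'
  have hb₀'x : ∀ y : L', b₀' y = b₀ • y := fun y => by
    rw [hb₀', Module.algebraMap_end_apply]
  set γ : L' →ₗ[O] L := β ∘ₗ W with hγ
  have hγx : ∀ z, γ z = β (W z) := fun z => rfl
  set Q : Module.End O L' := (U - b₀') * (U - a₀') with hQ
  have hQU : Commute Q U := by
    have h1 : Commute (U - b₀') U :=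
      (Commute.refl U).sub_left (Algebra.commute_algebraMap_left b₀ U)
    have h2 : Commute (U - a₀') U :=
      (Commute.refl U).sub_left (Algebra.commute_algebraMap_left a₀ U)
    exact h1.mul_left h2
  have hρsx : ∀ y : L, (ρ s) y = ρ t y - (a₀ + b₀) • y := by
    intro y
    rw [hρs, LinearMap.sub_apply, Module.algebraMap_end_apply]
  have hSγU : ∀ z, (ρ s) (γ (U z)) = γ (Q z) := by
    intro z
    have e1 : Q z = U (U z) - (a₀ + b₀) • U z + r • z := by
      rw [hQ, Module.End.mul_apply, LinearMap.sub_apply, LinearMap.sub_apply, ha₀'x, hb₀'x,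
        map_sub, map_smul, ← hprod]
      module
    have e2 : γ (U (U z)) = ρ t (γ (U z)) - r • γ z := by
      rw [hγx, hγx, hγx, ih4_βW_U O hD (U z), ih4_β_U O hD z]
    have e4 : γ (Q z) = ρ t (γ (U z)) - r • γ z - (a₀ + b₀) • γ (U z) + r • γ z := by
      rw [e1, map_add, map_sub, map_smul, map_smul, e2]
    rw [hρsx, e4]
    abel
  have hQpow : ∀ N : ℕ, Q ^ N = (U - b₀') ^ N * (U - a₀') ^ N := by
    intro N
    have h1 : Commute (U - b₀') (U - a₀') := by
      have h2 : Commute (U - b₀') U :=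
        (Commute.refl U).sub_left (Algebra.commute_algebraMap_left b₀ U)
      exact h2.sub_right (Algebra.commute_algebraMap_right a₀ _)
    rw [hQ, h1.mul_pow]
  have hnilU : ∀ n : ℕ, ∃ N : ℕ, ∀ x ∈ ih4pNil1 𝔪 (U - a₀'),
      ((U - a₀') ^ N) x ∈ 𝔪 ^ n • (⊤ : Submodule O L') := by
    intro n
    have := ih4p_exists_pow_apply_mem_nil (fun _ : Unit => U - a₀') hcommU () n
    rwa [ih4pNil_unit] at this
  have hA1 : ∀ z ∈ ih4pNil1 𝔪 (U - a₀'), ρ e (γ z) = γ z := by
    intro z hz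
    rw [← hLt, ← hρs]
    intro n
    obtain ⟨N, hN⟩ := hnilU n
    refine ⟨N, ?_⟩
    obtain ⟨h1, h2⟩ := hUVN N z hz
    have h3 := ih4p_pow_intertwine hQU hSγU N ((V ^ N) z)
    rw [h2] at h3
    rw [h3, hQpow, Module.End.mul_apply]
    exact ih4p_map_mem_smul_top (γ ∘ₗ ((U - b₀') ^ N)) _ (hN _ h1)
  have hA2 : ∀ z ∈ ih4pNil1 𝔪 (U - a₀'), ρ e (β z) = β z := by
    intro z hz
    have h1 : β z = ρ t (γ z) - γ (U z) := by
      rw [hγx, hγx, ih4_βW_U O hD z]; abel
    rw [h1, map_sub, ih4p_apply_idem_comm O A ρ t (hA1 z hz), hA1 (U z) (hUstab z hz)]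
  -- Claim B
  have hB1 : ∀ z ∈ ih4pNil1 𝔪 (U - a₀'), β (U z) - ρ b (γ (U z)) = ρ b (β z - ρ b (γ z)) := by
    intro z hz
    have h4 := ih4p_apply_eq_of_mul_eq O A ρ hR4 (hA1 z hz)
    rw [map_zero, LinearMap.zero_apply, map_add, map_sub, LinearMap.add_apply,
      LinearMap.sub_apply, hRapply, map_mul, Module.End.mul_apply, map_mul,
      Module.End.mul_apply] at h4
    rw [ih4_β_U O hD z, hγx (U z), ih4_βW_U O hD z, map_sub, map_sub, ← hγx]
    have h5 : r • γ z = ρ b (ρ t (γ z)) - ρ b (ρ b (γ z)) := by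
      rw [← sub_eq_zero, ← h4]; abel
    rw [h5]; abel
  have hρbA₀ : ∀ x : L, ρ (b - A₀) x = ρ b x - a₀ • x := by
    intro x
    rw [map_sub, LinearMap.sub_apply, hA₀, AlgHom.commutes, Module.algebraMap_end_apply]
  have hB2 : ∀ z ∈ ih4pNil1 𝔪 (U - a₀'),
      β ((U - a₀') z) - ρ b (γ ((U - a₀') z)) = ρ (b - A₀) (β z - ρ b (γ z)) := by
    intro z hz
    rw [hρbA₀, ← hB1 z hz, LinearMap.sub_apply, ha₀'x, map_sub, map_sub, map_sub, map_smul,
      map_smul, map_smul]
    module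
  have hstab : ∀ z ∈ ih4pNil1 𝔪 (U - a₀'), (U - a₀') z ∈ ih4pNil1 𝔪 (U - a₀') := by
    intro z hz
    exact ih4pNil1_map (f := U - a₀') (S := U - a₀') (S' := U - a₀') (fun x => rfl) hz
  have hB3 : ∀ N : ℕ, ∀ z ∈ ih4pNil1 𝔪 (U - a₀'),
      β (((U - a₀') ^ N) z) - ρ b (γ (((U - a₀') ^ N) z)) =
        ρ ((b - A₀) ^ N) (β z - ρ b (γ z)) := by
    intro N
    induction N with
    | zero => intro z hz; simp
    | succ k ih =>
      intro z hz
      rw [pow_succ, Module.End.mul_apply, ih _ (hstab z hz), hB2 z hz, pow_succ, map_mul,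
        Module.End.mul_apply]
  have hB : ∀ z ∈ ih4pNil1 𝔪 (U - a₀'), β z = ρ b (γ z) := by
    intro z hz
    rw [← sub_eq_zero]
    have hd : ρ e (β z - ρ b (γ z)) = β z - ρ b (γ z) := by
      rw [map_sub, hA2 z hz, ih4p_apply_idem_comm O A ρ b (hA1 z hz)]
    refine ih4p_eq_zero_of_forall_mem O fun n => ?_
    obtain ⟨N, hN⟩ := hz n
    have h1 := ih4p_apply_eq_of_mul_eq O A ρ (hu2N N) hd
    rw [map_one, Module.End.one_apply, map_mul, Module.End.mul_apply, ← hB3 N z hz] at h1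
    rw [← h1]
    exact ih4p_map_mem_smul_top ((ρ (u2 ^ N)) ∘ₗ (β - (ρ b) ∘ₗ γ)) _ hN
  -- Claim C
  have hC1 : ∀ k ∈ ih4K β W, (U + a₀') ((U - a₀') k) = (1 - a₀ ^ 2) • k := by
    intro k hk
    rw [LinearMap.sub_apply, LinearMap.add_apply, ha₀'x, ha₀'x, map_sub, map_smul,
      ih4_U_U_of_mem_K hD hk, smul_sub, smul_smul, sub_smul, one_smul, pow_two]
    abel
  have hCstab : ∀ k ∈ ih4K β W, (U - a₀') k ∈ ih4K β W := by
    intro k hk
    rw [LinearMap.sub_apply, ha₀'x]
    exact Submodule.sub_mem _ (ih4_U_mem_K hD hk) (Submodule.smul_mem _ _ hk)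
  have hC2 : ∀ N : ℕ, ∀ k ∈ ih4K β W,
      ((U + a₀') ^ N) (((U - a₀') ^ N) k) = (1 - a₀ ^ 2) ^ N • k := by
    intro N
    induction N with
    | zero => intro k hk; simp
    | succ j ih =>
      intro k hk
      rw [pow_succ (U - a₀'), Module.End.mul_apply, pow_succ' (U + a₀'), Module.End.mul_apply,
        ih _ (hCstab k hk), map_smul, hC1 k hk, smul_smul, ← pow_succ]
  have hC : ∀ k ∈ ih4K β W, k ∈ ih4pNil1 𝔪 (U - a₀') → k = 0 := by
    intro k hk hkn
    refine ih4p_eq_zero_of_forall_mem O fun n => ?_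
    obtain ⟨N, hN⟩ := hkn n
    have h1 : (1 - a₀ ^ 2) ^ N • k ∈ 𝔪 ^ n • (⊤ : Submodule O L') := by
      rw [← hC2 N k hk]
      exact ih4p_map_mem_smul_top _ _ hN
    obtain ⟨w, hw⟩ := (ha.pow N).exists_left_inv
    have h2 : k = w • ((1 - a₀ ^ 2) ^ N • k) := by rw [smul_smul, hw, one_smul]
    rw [h2]
    exact Submodule.smul_mem _ _ h1
  -- assembly
  refine ⟨a, u1, fun I hI => haa I (fun _ => hI), ?_, ?_, ⟨?_, ?_, ?_⟩, ?_⟩
  · intro n
    obtain ⟨N, hN⟩ := hnil n
    refine ⟨N, fun x hx => ?_⟩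
    have := hN x ((hLt x).mp hx)
    rwa [map_sub, hA₀, AlgHom.commutes] at this
  · intro x hx
    rw [hLt] at hx
    refine ⟨?_, ?_, ?_⟩
    · rw [← hTa x hx]; abel
    · rw [hLt]; exact ih4p_apply_idem_comm O A ρ a hx
    · exact hS1 x hx
  · intro x hx
    exact hS2 x ((hLt x).mp hx)
  · intro x hx x' hx' hxx'
    have hx := (hLt x).mp hx
    have hx' := (hLt x').mp hx'
    have hd : ρ e (x - x') = x - x' := by rw [map_sub, hx, hx']
    have h1 : Φ (x - x') = 0 := by rw [map_sub, sub_eq_zero]; exact hxx'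
    have h2 := hS3b (x - x') hd
    rw [h1, map_zero, map_zero] at h2
    have h3 := (hu1' (x - x') hd).1
    rw [← h2, map_zero] at h3
    exact sub_eq_zero.mp h3.symm
  · intro z hz
    have hz : z ∈ ih4pNil1 𝔪 (U - a₀') := hz
    have hp := hA1 z hz
    obtain ⟨-, h2, h3⟩ := hu1' (γ z) hp
    refine ⟨ρ u1 (γ z), (hLt _).mpr h3, ?_⟩
    have hk : z - Φ (ρ u1 (γ z)) ∈ ih4K β W := by
      rw [ih4_mem_K, map_sub, map_sub, map_sub, hS3a _ h3, hS3b _ h3, h2, map_mul,
        Module.End.mul_apply, h2, ← hB z hz, sub_self, ← hγx, sub_self]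
      exact ⟨rfl, rfl⟩
    have hkn : z - Φ (ρ u1 (γ z)) ∈ ih4pNil1 𝔪 (U - a₀') :=
      Submodule.sub_mem _ hz (hS2 _ h3)
    have := hC _ hk hkn
    exact (sub_eq_zero.mp this).symm
  · intro x hx
    have hx := (hLt x).mp hx
    rw [← hΦx, hS3b x hx]
    exact (hu1' x hx).1

end OneStep

section EndOneStep

variable {O : Type} [CommRing O] [IsLocalRing O] [IsNoetherianRing O]
  [IsAdicComplete (IsLocalRing.maximalIdeal O) O]
variable {L L' : Type} [AddCommGroup L] [Module O L] [Module.Finite O L]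
  [AddCommGroup L'] [Module O L'] [Module.Finite O L']
variable {r : O} {α : L →ₗ[O] L'} {β : L' →ₗ[O] L} {W : L' →ₗ[O] L'} {T : L →ₗ[O] L}
  {U : L' →ₗ[O] L'}

omit [IsLocalRing O] [IsNoetherianRing O] [IsAdicComplete (IsLocalRing.maximalIdeal O) O]
  [Module.Finite O L] in
/-- an endomorphism commuting with `T` commutes with the subalgebra generated by `T` -/
theorem ih4p_commute_of_mem_adjoin {T f a : Module.End O L} (hf : Commute f T)
    (ha : a ∈ Algebra.adjoin O {T}) : Commute f a := by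
  have h1 : Algebra.adjoin O {T} ≤ Subalgebra.centralizer O {f} := by
    refine Algebra.adjoin_le ?_
    intro x hx
    rw [Set.mem_singleton_iff] at hx
    subst hx
    rw [SetLike.mem_coe, Subalgebra.mem_centralizer_iff]
    intro g hg
    rw [Set.mem_singleton_iff] at hg
    subst hg
    exact hf.eq
  have h2 := h1 ha
  rw [Subalgebra.mem_centralizer_iff] at h2
  exact h2 f rfl

/-- **the level comparison at a Taylor–Wiles prime** (endomorphism form) -/
theorem ih4p_one_step (hD : Ih4Deg r α β W T U)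
    (a₀ b₀ : O) (hprod : a₀ * b₀ = r) (ha₀ : IsUnit a₀) (hab : IsUnit (a₀ - b₀))
    (ha : IsUnit (1 - a₀ ^ 2)) :
    ∃ a v : Module.End O L, a ∈ Algebra.adjoin O {T} ∧ v ∈ Algebra.adjoin O {T} ∧
      (∀ n : ℕ, ∃ N : ℕ, ∀ x ∈ ih4pNil1 (IsLocalRing.maximalIdeal O)
          (T - algebraMap O (Module.End O L) (a₀ + b₀)),
        ((a - algebraMap O (Module.End O L) a₀) ^ N) x ∈
          IsLocalRing.maximalIdeal O ^ n • (⊤ : Submodule O L)) ∧
      (∀ x ∈ ih4pNil1 (IsLocalRing.maximalIdeal O)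
          (T - algebraMap O (Module.End O L) (a₀ + b₀)),
        a (a x) - T (a x) + r • x = 0 ∧
        a x ∈ ih4pNil1 (IsLocalRing.maximalIdeal O)
          (T - algebraMap O (Module.End O L) (a₀ + b₀)) ∧
        U (α (a x) - W (α x)) = α (a (a x)) - W (α (a x))) ∧
      Set.BijOn (fun x => α (a x) - W (α x))
        (ih4pNil1 (IsLocalRing.maximalIdeal O) (T - algebraMap O (Module.End O L) (a₀ + b₀)))
        (ih4pNil1 (IsLocalRing.maximalIdeal O) (U - algebraMap O (Module.End O L') a₀)) ∧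
      (∀ x ∈ ih4pNil1 (IsLocalRing.maximalIdeal O)
          (T - algebraMap O (Module.End O L) (a₀ + b₀)),
        v (β (W (α (a x) - W (α x)))) = x) := by
  obtain ⟨A, _, _, _, ρ, s, hinj, hs, hmem, -⟩ :=
    ih4p_end_data (fun _ : Unit => T) (fun _ _ => Commute.refl _)
  have hst : ρ (s ()) = T := hs ()
  have hD' : Ih4Deg r α β W (ρ (s ())) U := by rw [hst]; exact hD
  obtain ⟨a, v, -, h1, h2, h3, h4⟩ := ih4p_one_step_alg O A ρ (s ()) hD' a₀ b₀ hprod ha₀ hab ha
  rw [hst] at h1 h2 h3 h4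
  have hm : ∀ y : A, ρ y ∈ Algebra.adjoin O {T} := by
    intro y
    have := hmem y
    rwa [Set.range_const] at this
  exact ⟨ρ a, ρ v, hm a, hm v, h1, h2, h3, h4⟩

/-- **the level comparison at a Taylor–Wiles prime, with spectator operators**: if `F i`, `F' i`
are operators on `L`, `L'` intertwined by `α`, `β`, commuting with `W` and `T`, the isomorphism
restricts to the parts where all `F i`, resp. `F' i`, are topologically nilpotent -/
theorem ih4p_one_step_family (hD : Ih4Deg r α β W T U)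
    (a₀ b₀ : O) (hprod : a₀ * b₀ = r) (ha₀ : IsUnit a₀) (hab : IsUnit (a₀ - b₀))
    (ha : IsUnit (1 - a₀ ^ 2))
    {ι : Type*} (F : ι → Module.End O L) (F' : ι → Module.End O L')
    (hFα : ∀ i x, α (F i x) = F' i (α x)) (hFβ : ∀ i y, β (F' i y) = F i (β y))
    (hFW : ∀ i y, W (F' i y) = F' i (W y)) (hFT : ∀ i, Commute (F i) T) :
    ∃ a : Module.End O L, a ∈ Algebra.adjoin O {T} ∧
      (∀ n : ℕ, ∃ N : ℕ, ∀ x ∈ ih4pNil1 (IsLocalRing.maximalIdeal O)
          (T - algebraMap O (Module.End O L) (a₀ + b₀)),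
        ((a - algebraMap O (Module.End O L) a₀) ^ N) x ∈
          IsLocalRing.maximalIdeal O ^ n • (⊤ : Submodule O L)) ∧
      (∀ x ∈ ih4pNil1 (IsLocalRing.maximalIdeal O)
          (T - algebraMap O (Module.End O L) (a₀ + b₀)),
        a (a x) - T (a x) + r • x = 0 ∧
        a x ∈ ih4pNil1 (IsLocalRing.maximalIdeal O)
          (T - algebraMap O (Module.End O L) (a₀ + b₀)) ∧
        U (α (a x) - W (α x)) = α (a (a x)) - W (α (a x))) ∧
      Set.BijOn (fun x => α (a x) - W (α x))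
        (ih4pNil1 (IsLocalRing.maximalIdeal O) (T - algebraMap O (Module.End O L) (a₀ + b₀)) ⊓
          ih4pNil (IsLocalRing.maximalIdeal O) F : Submodule O L)
        (ih4pNil1 (IsLocalRing.maximalIdeal O) (U - algebraMap O (Module.End O L') a₀) ⊓
          ih4pNil (IsLocalRing.maximalIdeal O) F' : Submodule O L') := by
  obtain ⟨a, v, ha_mem, hv_mem, h1, h2, h3, h4⟩ := ih4p_one_step hD a₀ b₀ hprod ha₀ hab ha
  refine ⟨a, ha_mem, h1, h2, ?_⟩
  have hFa : ∀ i, Commute (F i) a := fun i => ih4p_commute_of_mem_adjoin (hFT i) ha_mem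
  have hFv : ∀ i, Commute (F i) v := fun i => ih4p_commute_of_mem_adjoin (hFT i) hv_mem
  have hΦF : ∀ i x, ih4E α W a (F i x) = F' i (ih4E α W a x) := by
    intro i x
    rw [ih4E_apply, ih4E_apply, map_sub, ← hFα, ← hFW, ← hFα]
    have := LinearMap.congr_fun (hFa i).eq x
    rw [Module.End.mul_apply, Module.End.mul_apply] at this
    rw [this]
  have hΨF : ∀ i z, (v ∘ₗ β ∘ₗ W) (F' i z) = F i ((v ∘ₗ β ∘ₗ W) z) := by
    intro i z
    simp only [LinearMap.comp_apply]
    rw [hFW, hFβ]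
    have := LinearMap.congr_fun (hFv i).eq (β (W z))
    rw [Module.End.mul_apply, Module.End.mul_apply] at this
    rw [this]
  refine ⟨?_, ?_, ?_⟩
  · intro x hx
    rw [SetLike.mem_coe, Submodule.mem_inf] at hx
    rw [SetLike.mem_coe, Submodule.mem_inf]
    exact ⟨h3.mapsTo hx.1, ih4pNil_map (f := ih4E α W a) hΦF hx.2⟩
  · intro x hx x' hx' hxx'
    rw [SetLike.mem_coe, Submodule.mem_inf] at hx hx'
    exact h3.injOn hx.1 hx'.1 hxx'
  · intro z hz
    rw [SetLike.mem_coe, Submodule.mem_inf] at hz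
    obtain ⟨x, hx, hxz⟩ := h3.surjOn hz.1
    refine ⟨x, ?_, hxz⟩
    rw [SetLike.mem_coe, Submodule.mem_inf]
    refine ⟨hx, ?_⟩
    have h5 := h4 x hx
    simp only at hxz
    rw [hxz] at h5
    rw [← h5]
    exact ih4pNil_map (f := v ∘ₗ β ∘ₗ W) hΨF hz.2

omit [IsLocalRing O] [IsNoetherianRing O] [IsAdicComplete (IsLocalRing.maximalIdeal O) O]
  [Module.Finite O L] [Module.Finite O L'] in
/-- a linear map which is bijective between two submodules, as a linear equivalence -/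
theorem ih4p_exists_equiv_of_bijOn (f : L →ₗ[O] L') (X : Submodule O L) (Y : Submodule O L')
    (h : Set.BijOn f X Y) : ∃ Φ : ↥X ≃ₗ[O] ↥Y, ∀ x : ↥X, (Φ x : L') = f x := by
  refine ⟨LinearEquiv.ofBijective (f.restrict (p := X) (q := Y) fun x hx => h.mapsTo hx)
    ⟨?_, ?_⟩, fun x => rfl⟩
  · intro x y hxy
    apply Subtype.ext
    apply h.injOn x.2 y.2
    exact congrArg Subtype.val hxy
  · intro y
    obtain ⟨x, hx, hxy⟩ := h.surjOn y.2
    exact ⟨⟨x, hx⟩, Subtype.ext hxy⟩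

end EndOneStep

end Fermat.Agent.Ihara
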