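/-
IHARA track (S43 case (C)), package [H4] (helper3), part 7: **the Taylor–Wiles level comparison on
the Betti modules** `H(M) = parabolicHoms O Γ₀(M) O`, `O` a complete Noetherian local domain of
characteristic zero.

* `ih4Op O M ℓ`   : the Hecke operator at the prime `ℓ` in the level-`M` convention (`U_ℓ` if
  `ℓ ∣ M`, `T_ℓ` otherwise);
* `ih4Part O M Ps θ` : the part of `H(M)` where `ih4Op O M ℓ - θ ℓ` is topologically nilpotent for
  all `ℓ ∈ Ps`;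
* `ih4_tw_step`   : `ih4Part O (N r) Ps θ ≃ₗ[O] ih4Part O N Ps (θ with θ r ↦ θ r + r / θ r)` for a
  Taylor–Wiles prime `r ∈ Ps`, equivariant for all `ih4Op _ ℓ`, `ℓ ≠ r`;
* `ih4_tw_list`   : the iteration over a list `Q` of Taylor–Wiles primes.
-/
import Mathlib
import Fermat.Agent.Lib.Ihara.H4.Comm
import Fermat.Agent.Lib.Ihara.H4.TwPrime

set_option autoImplicit false
set_option linter.unusedSectionVars false
set_option linter.unusedVariables false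
set_option linter.style.haveILetI false

open Matrix MatrixGroups CongruenceSubgroup Fermat.Agent.T1 Fermat.Agent.T2 ModularCurve
  Fermat.Agent.S24Lib ModularCurve.Period Fermat.Agent.LR

namespace Fermat.Agent.Ihara

section Finite

variable (O : Type*) [CommRing O] [IsNoetherianRing O] (M : ℕ) [NeZero M]

instance ih4_finite_betti : Module.Finite O (Ih4H O O M) := by
  haveI := tdm_isNoetherian_homG (G := Gamma0 M) O
  infer_instance

end Finite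

section Op

variable (O : Type*) [CommRing O] (M : ℕ) [NeZero M]

/-- the Hecke operator at the prime `ℓ` in the level-`M` convention: `U_ℓ` if `ℓ ∣ M`, `T_ℓ`
otherwise (and `0` if `ℓ` is not prime) -/
noncomputable def ih4Op (ℓ : ℕ) : Module.End O (Ih4H O O M) := by
  classical
  exact if hℓ : ℓ.Prime then
    (if hM : ℓ ∣ M then ih4U O O M ℓ hM hℓ.ne_zero else ih4T O O M ℓ hℓ hM) else 0

theorem ih4Op_of_dvd {ℓ : ℕ} (hℓ : ℓ.Prime) (hM : ℓ ∣ M) :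
    ih4Op O M ℓ = ih4U O O M ℓ hM hℓ.ne_zero := by
  unfold ih4Op
  rw [dif_pos hℓ, dif_pos hM]

theorem ih4Op_of_not_dvd {ℓ : ℕ} (hℓ : ℓ.Prime) (hM : ¬ ℓ ∣ M) :
    ih4Op O M ℓ = ih4T O O M ℓ hℓ hM := by
  unfold ih4Op
  rw [dif_pos hℓ, dif_neg hM]

theorem ih4Op_of_not_prime {ℓ : ℕ} (hℓ : ¬ ℓ.Prime) : ih4Op O M ℓ = 0 := by
  unfold ih4Op
  rw [dif_neg hℓ]

end Op

section Comm

variable (O : Type*) [CommRing O] [IsDomain O] [CharZero O] (M : ℕ) [NeZero M]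

/-- the Hecke operators of one level commute -/
theorem ih4Op_commute (ℓ ℓ' : ℕ) : Commute (ih4Op O M ℓ) (ih4Op O M ℓ') := by
  by_cases hℓ : ℓ.Prime
  swap
  · rw [ih4Op_of_not_prime O M hℓ]; exact Commute.zero_left _
  by_cases hℓ' : ℓ'.Prime
  swap
  · rw [ih4Op_of_not_prime O M hℓ']; exact Commute.zero_right _
  by_cases h1 : ℓ ∣ M <;> by_cases h2 : ℓ' ∣ M
  · rw [ih4Op_of_dvd O M hℓ h1, ih4Op_of_dvd O M hℓ' h2]
    exact LinearMap.ext fun x => ih4_U_U_comm O M ℓ ℓ' hℓ h1 hℓ' h2 x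
  · rw [ih4Op_of_dvd O M hℓ h1, ih4Op_of_not_dvd O M hℓ' h2]
    exact LinearMap.ext fun x => (ih4_T_U_comm O M ℓ' ℓ hℓ' h2 hℓ h1 x).symm
  · rw [ih4Op_of_not_dvd O M hℓ h1, ih4Op_of_dvd O M hℓ' h2]
    exact LinearMap.ext fun x => ih4_T_U_comm O M ℓ ℓ' hℓ h1 hℓ' h2 x
  · rw [ih4Op_of_not_dvd O M hℓ h1, ih4Op_of_not_dvd O M hℓ' h2]
    exact LinearMap.ext fun x => ih4_T_T_comm O M ℓ ℓ' hℓ h1 hℓ' h2 x

end Comm

section TwoLevels

variable (O : Type*) [CommRing O] [IsDomain O] [CharZero O]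
  (N r : ℕ) [NeZero N] [hr : Fact r.Prime] (h : ¬ r ∣ N)

theorem ih4_not_dvd_mul {ℓ : ℕ} (hℓ : ℓ.Prime) (hℓr : ℓ ≠ r) (hℓN : ¬ ℓ ∣ N) : ¬ ℓ ∣ N * r := by
  intro hd
  rcases (Nat.Prime.dvd_mul hℓ).mp hd with h1 | h1
  · exact hℓN h1
  · exact hℓr ((Nat.prime_dvd_prime_iff_eq hℓ hr.out).mp h1)

/-- `res` intertwines the Hecke operators away from `r` -/
theorem ih4Op_res {ℓ : ℕ} (hℓr : ℓ ≠ r) (x : Ih4H O O N) :
    ih4Res N r O O (ih4Op O N ℓ x) = ih4Op O (N * r) ℓ (ih4Res N r O O x) := by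
  by_cases hℓ : ℓ.Prime
  swap
  · rw [ih4Op_of_not_prime O N hℓ, ih4Op_of_not_prime O (N * r) hℓ]; simp
  by_cases h1 : ℓ ∣ N
  · rw [ih4Op_of_dvd O N hℓ h1, ih4Op_of_dvd O (N * r) hℓ (Dvd.dvd.mul_right h1 r)]
    exact ih4_res_U N r O O ℓ h1 hℓ.ne_zero x
  · have h2 := ih4_not_dvd_mul N r hℓ hℓr h1
    rw [ih4Op_of_not_dvd O N hℓ h1, ih4Op_of_not_dvd O (N * r) hℓ h2]
    exact ih4_res_T N r O O ℓ hℓ h2 h1 x

/-- `cor` intertwines the Hecke operators away from `r` -/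
theorem ih4Op_cor {ℓ : ℕ} (hℓr : ℓ ≠ r) (y : Ih4H O O (N * r)) :
    ih4Cor N r h O O (ih4Op O (N * r) ℓ y) = ih4Op O N ℓ (ih4Cor N r h O O y) := by
  by_cases hℓ : ℓ.Prime
  swap
  · rw [ih4Op_of_not_prime O N hℓ, ih4Op_of_not_prime O (N * r) hℓ]; simp
  by_cases h1 : ℓ ∣ N
  · rw [ih4Op_of_dvd O N hℓ h1, ih4Op_of_dvd O (N * r) hℓ (Dvd.dvd.mul_right h1 r)]
    exact ih4_cor_U N r h O ℓ hℓ h1 y
  · have h2 := ih4_not_dvd_mul N r hℓ hℓr h1
    rw [ih4Op_of_not_dvd O N hℓ h1, ih4Op_of_not_dvd O (N * r) hℓ h2]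
    exact ih4_cor_T N r h O ℓ hℓ h2 h1 y

/-- `w_r` commutes with the Hecke operators away from `r` -/
theorem ih4Op_W {ℓ : ℕ} (hℓr : ℓ ≠ r) (y : Ih4H O O (N * r)) :
    ih4W N r h O O (ih4Op O (N * r) ℓ y) = ih4Op O (N * r) ℓ (ih4W N r h O O y) := by
  by_cases hℓ : ℓ.Prime
  swap
  · rw [ih4Op_of_not_prime O (N * r) hℓ]; simp
  by_cases h1 : ℓ ∣ N
  · rw [ih4Op_of_dvd O (N * r) hℓ (Dvd.dvd.mul_right h1 r)]
    exact ih4_W_U N r h O O ℓ h1 hℓ.ne_zero y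
  · have h2 := ih4_not_dvd_mul N r hℓ hℓr h1
    rw [ih4Op_of_not_dvd O (N * r) hℓ h2]
    exact ih4_W_T N r h O O ℓ hℓ h2 y

/-- the degeneracy identities in terms of `ih4Op` -/
theorem ih4_deg_op :
    Ih4Deg ((r : ℕ) : O) (ih4Res N r O O) (ih4Cor N r h O O) (ih4W N r h O O)
      (ih4Op O N r) (ih4Op O (N * r) r) := by
  rw [ih4Op_of_not_dvd O N hr.out h, ih4Op_of_dvd O (N * r) hr.out (Dvd.intro_left N rfl)]
  exact ih4_deg N r h O O

end TwoLevels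

section Step

variable (O : Type) [CommRing O] [IsDomain O] [CharZero O] [IsLocalRing O] [IsNoetherianRing O]
  [IsAdicComplete (IsLocalRing.maximalIdeal O) O]

/-- the `θ`-part of the Betti module of level `M` with respect to the Hecke operators at the primes
in `Ps` -/
noncomputable def ih4Part (M : ℕ) [NeZero M] (Ps : Set ℕ) (θ : ℕ → O) :
    Submodule O (Ih4H O O M) :=
  ih4pNil (IsLocalRing.maximalIdeal O)
    (fun ℓ : Ps => ih4Op O M ℓ - algebraMap O (Module.End O (Ih4H O O M)) (θ ℓ))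

omit [IsDomain O] [CharZero O] [IsNoetherianRing O]
  [IsAdicComplete (IsLocalRing.maximalIdeal O) O] in
theorem ih4_mem_part {M : ℕ} [NeZero M] {Ps : Set ℕ} {θ : ℕ → O} {x : Ih4H O O M} :
    x ∈ ih4Part O M Ps θ ↔ ∀ ℓ ∈ Ps, x ∈ ih4pNil1 (IsLocalRing.maximalIdeal O)
      (ih4Op O M ℓ - algebraMap O (Module.End O (Ih4H O O M)) (θ ℓ)) := by
  unfold ih4Part ih4pNil
  rw [Submodule.mem_iInf]
  exact ⟨fun h ℓ hℓ => h ⟨ℓ, hℓ⟩, fun h ℓ => h ℓ.1 ℓ.2⟩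

omit [IsNoetherianRing O] [IsAdicComplete (IsLocalRing.maximalIdeal O) O] in
/-- the Hecke operators preserve the `θ`-part -/
theorem ih4Op_mem_part {M : ℕ} [NeZero M] {Ps : Set ℕ} {θ : ℕ → O} (ℓ : ℕ) {x : Ih4H O O M}
    (hx : x ∈ ih4Part O M Ps θ) : ih4Op O M ℓ x ∈ ih4Part O M Ps θ := by
  unfold ih4Part at hx ⊢
  refine ih4pNil_commute (fun i => ?_) hx
  have h1 : Commute (ih4Op O M ℓ) (ih4Op O M i) := ih4Op_commute O M ℓ i
  have h2 : Commute (ih4Op O M ℓ) (algebraMap O (Module.End O (Ih4H O O M)) (θ i)) :=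
    Algebra.commute_algebraMap_right (θ i) (ih4Op O M ℓ)
  exact Commute.sub_right (R := Module.End O (Ih4H O O M)) h1 h2

/-- **the level comparison at a Taylor–Wiles prime `r ∈ Ps`** on the Betti modules -/
theorem ih4_tw_step (N r : ℕ) [NeZero N] [hr : Fact r.Prime] (h : ¬ r ∣ N) (Ps : Set ℕ)
    (hrPs : r ∈ Ps) (θ : ℕ → O) (b₀ : O) (hprod : θ r * b₀ = ((r : ℕ) : O))
    (ha₀ : IsUnit (θ r)) (hab : IsUnit (θ r - b₀)) (ha : IsUnit (1 - θ r ^ 2)) :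
    ∃ Φ : ↥(ih4Part O (N * r) Ps θ) ≃ₗ[O] ↥(ih4Part O N Ps (Function.update θ r (θ r + b₀))),
      ∀ ℓ : ℕ, ℓ ≠ r → ∀ y y' : ↥(ih4Part O (N * r) Ps θ),
        (y' : Ih4H O O (N * r)) = ih4Op O (N * r) ℓ y →
          ((Φ y' : ↥(ih4Part O N Ps (Function.update θ r (θ r + b₀)))) : Ih4H O O N) =
            ih4Op O N ℓ (Φ y) := by
  classical
  set 𝔪 := IsLocalRing.maximalIdeal O with h𝔪
  set ι := {ℓ : ℕ // ℓ ∈ Ps ∧ ℓ ≠ r} with hι
  set F : ι → Module.End O (Ih4H O O N) :=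
    fun i => ih4Op O N i - algebraMap O (Module.End O (Ih4H O O N)) (θ i) with hF
  set F' : ι → Module.End O (Ih4H O O (N * r)) :=
    fun i => ih4Op O (N * r) i - algebraMap O (Module.End O (Ih4H O O (N * r))) (θ i) with hF'
  have hFα : ∀ i x, ih4Res N r O O (F i x) = F' i (ih4Res N r O O x) := by
    intro i x
    simp only [hF, hF', LinearMap.sub_apply, Module.algebraMap_end_apply, map_sub, map_smul]
    rw [ih4Op_res O N r i.2.2]
  have hFβ : ∀ i y, ih4Cor N r h O O (F' i y) = F i (ih4Cor N r h O O y) := by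
    intro i y
    simp only [hF, hF', LinearMap.sub_apply, Module.algebraMap_end_apply, map_sub, map_smul]
    rw [ih4Op_cor O N r h i.2.2]
  have hFW : ∀ i y, ih4W N r h O O (F' i y) = F' i (ih4W N r h O O y) := by
    intro i y
    simp only [hF', LinearMap.sub_apply, Module.algebraMap_end_apply, map_sub, map_smul]
    rw [ih4Op_W O N r h i.2.2]
  have hFT : ∀ i, Commute (F i) (ih4Op O N r) := by
    intro i
    have h1 : Commute (ih4Op O N i) (ih4Op O N r) := ih4Op_commute O N i r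
    have h2 : Commute (algebraMap O (Module.End O (Ih4H O O N)) (θ i)) (ih4Op O N r) :=
      Algebra.commute_algebraMap_left (θ i) (ih4Op O N r)
    exact Commute.sub_left (R := Module.End O (Ih4H O O N)) h1 h2
  obtain ⟨a, ha_mem, -, -, hbij⟩ := ih4p_one_step_family (ih4_deg_op O N r h) (θ r) b₀ hprod ha₀
    hab ha F F' hFα hFβ hFW hFT
  -- identify the two sides with the `θ`-parts
  have hbot : (ih4pNil1 𝔪 (ih4Op O N r - algebraMap O (Module.End O (Ih4H O O N)) (θ r + b₀)) ⊓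
      ih4pNil 𝔪 F : Submodule O (Ih4H O O N)) =
        ih4Part O N Ps (Function.update θ r (θ r + b₀)) := by
    ext x
    rw [Submodule.mem_inf, ih4_mem_part, ih4p_mem_nil]
    constructor
    · rintro ⟨h1, h2⟩ ℓ hℓ
      by_cases hℓr : ℓ = r
      · subst hℓr
        rw [Function.update_self]
        exact h1
      · rw [Function.update_of_ne hℓr]
        exact h2 ⟨ℓ, hℓ, hℓr⟩
    · intro h1
      refine ⟨?_, fun i => ?_⟩
      · have := h1 r hrPs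
        rwa [Function.update_self] at this
      · have := h1 i.1 i.2.1
        rwa [Function.update_of_ne i.2.2] at this
  have htop : (ih4pNil1 𝔪 (ih4Op O (N * r) r -
      algebraMap O (Module.End O (Ih4H O O (N * r))) (θ r)) ⊓
      ih4pNil 𝔪 F' : Submodule O (Ih4H O O (N * r))) = ih4Part O (N * r) Ps θ := by
    ext x
    rw [Submodule.mem_inf, ih4_mem_part, ih4p_mem_nil]
    constructor
    · rintro ⟨h1, h2⟩ ℓ hℓ
      by_cases hℓr : ℓ = r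
      · subst hℓr
        exact h1
      · exact h2 ⟨ℓ, hℓ, hℓr⟩
    · intro h1
      exact ⟨h1 r hrPs, fun i => h1 i.1 i.2.1⟩
  rw [hbot, htop] at hbij
  obtain ⟨Ψ, hΨ⟩ := ih4p_exists_equiv_of_bijOn (ih4E (ih4Res N r O O) (ih4W N r h O O) a) _ _ hbij
  refine ⟨Ψ.symm, ?_⟩
  intro ℓ hℓr y y' hy'
  -- `a` commutes with the Hecke operators
  have haℓ : Commute (ih4Op O N ℓ) a :=
    ih4p_commute_of_mem_adjoin (ih4Op_commute O N ℓ r) ha_mem
  obtain ⟨x, rfl⟩ := Ψ.surjective y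
  have hx' : ih4Op O N ℓ (x : Ih4H O O N) ∈ ih4Part O N Ps (Function.update θ r (θ r + b₀)) :=
    ih4Op_mem_part O ℓ x.2
  have h1 : y' = Ψ ⟨ih4Op O N ℓ (x : Ih4H O O N), hx'⟩ := by
    apply Subtype.ext
    rw [hy', hΨ, hΨ, ih4E_apply, ih4E_apply, map_sub, ← ih4Op_W O N r h hℓr,
      ← ih4Op_res O N r hℓr, ← ih4Op_res O N r hℓr]
    have := LinearMap.congr_fun haℓ.eq (x : Ih4H O O N)
    rw [Module.End.mul_apply, Module.End.mul_apply] at this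
    rw [this]
  rw [h1, LinearEquiv.symm_apply_apply, LinearEquiv.symm_apply_apply]

/-- the shifts at the bottom level: `θ r + b r` (`= α_r + β_r`) for `r ∈ Q`, unchanged elsewhere -/
noncomputable def ih4Shift (θ b : ℕ → O) (Q : List ℕ) : ℕ → O := by
  classical
  exact fun ℓ => if ℓ ∈ Q then θ ℓ + b ℓ else θ ℓ

omit [IsDomain O] [CharZero O] [IsLocalRing O] [IsNoetherianRing O]
  [IsAdicComplete (IsLocalRing.maximalIdeal O) O] in
theorem ih4Shift_nil (θ b : ℕ → O) : ih4Shift O θ b [] = θ := by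
  funext ℓ
  simp [ih4Shift]

omit [IsDomain O] [CharZero O] [IsLocalRing O] [IsNoetherianRing O]
  [IsAdicComplete (IsLocalRing.maximalIdeal O) O] in
theorem ih4Shift_of_notMem (θ b : ℕ → O) {Q : List ℕ} {ℓ : ℕ} (h : ℓ ∉ Q) :
    ih4Shift O θ b Q ℓ = θ ℓ := by
  simp [ih4Shift, h]

omit [IsDomain O] [CharZero O] [IsLocalRing O] [IsNoetherianRing O]
  [IsAdicComplete (IsLocalRing.maximalIdeal O) O] in
theorem ih4Shift_cons (θ b : ℕ → O) (r : ℕ) {Q : List ℕ} (hr : r ∉ Q) :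
    Function.update (ih4Shift O θ b Q) r (ih4Shift O θ b Q r + b r) = ih4Shift O θ b (r :: Q) := by
  classical
  funext ℓ
  by_cases hℓ : ℓ = r
  · subst hℓ
    rw [Function.update_self, ih4Shift_of_notMem O θ b hr]
    simp [ih4Shift]
  · rw [Function.update_of_ne hℓ]
    simp [ih4Shift, hℓ]

/-- **the level comparison over a list `Q` of Taylor–Wiles primes**: for `M = N · ∏ Q`,
`H(M)_θ ≃ H(N)_θ'` where `θ' r = θ r + b r` for `r ∈ Q`, equivariantly for all Hecke operators at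
primes `ℓ ∉ Q` -/
theorem ih4_tw_list (Q : List ℕ) : ∀ (N : ℕ) [NeZero N] (M : ℕ) [NeZero M],
    M = Q.foldl (· * ·) N → Q.Nodup → (∀ r ∈ Q, r.Prime ∧ ¬ r ∣ N) →
    ∀ (Ps : Set ℕ), (∀ r ∈ Q, r ∈ Ps) → ∀ (θ b : ℕ → O),
    (∀ r ∈ Q, θ r * b r = ((r : ℕ) : O) ∧ IsUnit (θ r) ∧ IsUnit (θ r - b r) ∧
      IsUnit (1 - θ r ^ 2)) →
    ∃ Φ : ↥(ih4Part O M Ps θ) ≃ₗ[O] ↥(ih4Part O N Ps (ih4Shift O θ b Q)),
      ∀ ℓ : ℕ, ℓ ∉ Q → ∀ y y' : ↥(ih4Part O M Ps θ),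
        (y' : Ih4H O O M) = ih4Op O M ℓ y →
          ((Φ y' : ↥(ih4Part O N Ps (ih4Shift O θ b Q))) : Ih4H O O N) = ih4Op O N ℓ (Φ y) := by
  induction Q with
  | nil =>
    intro N _ M _ hM _ _ Ps _ θ b _
    rw [List.foldl_nil] at hM
    subst hM
    rw [ih4Shift_nil]
    exact ⟨LinearEquiv.refl O _, fun ℓ _ y y' hy' => hy'⟩
  | cons r Q' ih =>
    intro N _ M _ hM hnd hQ Ps hPs θ b hθ
    rw [List.foldl_cons] at hM
    rw [List.nodup_cons] at hnd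
    obtain ⟨hrQ', hnd'⟩ := hnd
    have hrp : r.Prime := (hQ r (List.mem_cons_self)).1
    have hrN : ¬ r ∣ N := (hQ r (List.mem_cons_self)).2
    haveI : Fact r.Prime := ⟨hrp⟩
    have hQ' : ∀ r' ∈ Q', r'.Prime ∧ ¬ r' ∣ N * r := by
      intro r' hr'
      have h1 := hQ r' (List.mem_cons_of_mem _ hr')
      refine ⟨h1.1, ih4_not_dvd_mul N r h1.1 ?_ h1.2⟩
      rintro rfl
      exact hrQ' hr'
    obtain ⟨Φ₁, hΦ₁⟩ := ih (N * r) M hM hnd' hQ' Ps
      (fun r' hr' => hPs r' (List.mem_cons_of_mem _ hr')) θ b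
      (fun r' hr' => hθ r' (List.mem_cons_of_mem _ hr'))
    have hθr := hθ r (List.mem_cons_self)
    have hsr : ih4Shift O θ b Q' r = θ r := ih4Shift_of_notMem O θ b hrQ'
    obtain ⟨Φ₂, hΦ₂⟩ := ih4_tw_step O N r hrN Ps (hPs r (List.mem_cons_self))
      (ih4Shift O θ b Q') (b r) (by rw [hsr]; exact hθr.1) (by rw [hsr]; exact hθr.2.1)
      (by rw [hsr]; exact hθr.2.2.1) (by rw [hsr]; exact hθr.2.2.2)
    rw [← ih4Shift_cons O θ b r hrQ']
    refine ⟨Φ₁.trans Φ₂, ?_⟩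
    intro ℓ hℓ y y' hy'
    rw [List.mem_cons, not_or] at hℓ
    have h1 := hΦ₁ ℓ hℓ.2 y y' hy'
    have h2 := hΦ₂ ℓ hℓ.1 (Φ₁ y) (Φ₁ y') h1
    exact h2

/-- equality of ranks over a list of Taylor–Wiles primes -/
theorem ih4_tw_list_finrank (Q : List ℕ) (N : ℕ) [NeZero N] (M : ℕ) [NeZero M]
    (hM : M = Q.foldl (· * ·) N) (hnd : Q.Nodup) (hQ : ∀ r ∈ Q, r.Prime ∧ ¬ r ∣ N)
    (Ps : Set ℕ) (hPs : ∀ r ∈ Q, r ∈ Ps) (θ b : ℕ → O)
    (hθ : ∀ r ∈ Q, θ r * b r = ((r : ℕ) : O) ∧ IsUnit (θ r) ∧ IsUnit (θ r - b r) ∧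
      IsUnit (1 - θ r ^ 2)) :
    Module.finrank O ↥(ih4Part O M Ps θ) =
      Module.finrank O ↥(ih4Part O N Ps (ih4Shift O θ b Q)) := by
  obtain ⟨Φ, -⟩ := ih4_tw_list O Q N M hM hnd hQ Ps hPs θ b hθ
  exact Φ.finrank_eq

/-- vanishing transfers along a list of Taylor–Wiles primes -/
theorem ih4_tw_list_eq_bot_iff (Q : List ℕ) (N : ℕ) [NeZero N] (M : ℕ) [NeZero M]
    (hM : M = Q.foldl (· * ·) N) (hnd : Q.Nodup) (hQ : ∀ r ∈ Q, r.Prime ∧ ¬ r ∣ N)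
    (Ps : Set ℕ) (hPs : ∀ r ∈ Q, r ∈ Ps) (θ b : ℕ → O)
    (hθ : ∀ r ∈ Q, θ r * b r = ((r : ℕ) : O) ∧ IsUnit (θ r) ∧ IsUnit (θ r - b r) ∧
      IsUnit (1 - θ r ^ 2)) :
    ih4Part O M Ps θ = ⊥ ↔ ih4Part O N Ps (ih4Shift O θ b Q) = ⊥ := by
  obtain ⟨Φ, -⟩ := ih4_tw_list O Q N M hM hnd hQ Ps hPs θ b hθ
  rw [← Submodule.subsingleton_iff_eq_bot, ← Submodule.subsingleton_iff_eq_bot]
  exact ⟨fun _ => Φ.symm.toEquiv.subsingleton, fun _ => Φ.toEquiv.subsingleton⟩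

/-- the `θ`-part is a direct summand of the Betti module -/
theorem ih4Part_isCompl (M : ℕ) [NeZero M] (Ps : Set ℕ) (θ : ℕ → O) :
    IsCompl (ih4Part O M Ps θ)
      (ih4pInv (fun ℓ : Ps => ih4Op O M ℓ - algebraMap O (Module.End O (Ih4H O O M)) (θ ℓ))) := by
  unfold ih4Part
  refine ih4p_isCompl _ fun i j => ?_
  have h1 : Commute (ih4Op O M i) (ih4Op O M j) := ih4Op_commute O M i j
  have h2 : Commute (ih4Op O M i) (algebraMap O (Module.End O (Ih4H O O M)) (θ j)) :=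
    Algebra.commute_algebraMap_right (θ j) (ih4Op O M i)
  have h3 : Commute (algebraMap O (Module.End O (Ih4H O O M)) (θ i))
      (ih4Op O M j - algebraMap O (Module.End O (Ih4H O O M)) (θ j)) :=
    Algebra.commute_algebraMap_left (θ i) _
  exact Commute.sub_left (R := Module.End O (Ih4H O O M))
    (Commute.sub_right (R := Module.End O (Ih4H O O M)) h1 h2) h3

end Step

end Fermat.Agent.Ihara
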