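/-
IHARA track (S43 case (C)), package [H4] (helper3), part 8: **the Prelude Hecke algebra acts on the
Betti modules** `H(M) = parabolicHoms O Γ₀(M) O` (`O` a domain of characteristic zero), through the
base change of the action `tdmHecke` on the `ℤ`-lattice (Eichler–Shimura, `Lib/T1/Mono/Lattice`):
`ih4Hecke O M S : heckeAlgebra M 2 S →+* End_O H(M)` with `T_ℓ ↦ ih4Op O M ℓ`, `U_q ↦ ih4Op O M q`.
-/
import Mathlib
import Fermat.Agent.Lib.Ihara.H4.TwBetti

set_option autoImplicit false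
set_option linter.unusedSectionVars false
set_option linter.unusedVariables false
set_option linter.style.haveILetI false

open Matrix MatrixGroups CongruenceSubgroup Fermat.Agent.T1 Fermat.Agent.T2 ModularCurve
  Fermat.Agent.S24Lib ModularCurve.Period Fermat.Agent.LR CuspForm
open scoped TensorProduct

namespace Fermat.Agent.Ihara

noncomputable section

variable (O : Type*) [CommRing O] [IsDomain O] [CharZero O] (M : ℕ) [NeZero M]

/-- the action of the full Hecke algebra on `H(M)` -/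
def ih4Hecke0 : CuspForm.heckeAlgebra M 2 (∅ : Set ℕ) →+* Module.End O (Ih4H O O M) :=
  ((tdmBC M O).conjRingEquiv : Module.End O (O ⊗[ℤ] ↥(tdmL M)) →+* _).comp
    (((Module.End.baseChangeHom ℤ O ↥(tdmL M) : Module.End ℤ ↥(tdmL M) →ₐ[ℤ] _) :
      Module.End ℤ ↥(tdmL M) →+* _).comp (tdmHecke M))

theorem ih4Hecke0_apply (t : CuspForm.heckeAlgebra M 2 (∅ : Set ℕ)) (φ : Ih4H O O M) :
    ih4Hecke0 O M t φ = tdmBC M O ((tdmHecke M t).baseChange O ((tdmBC M O).symm φ)) := rfl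

theorem ih4Hecke0_T (l : ℕ) (hl : l.Prime) (hlM : ¬ l ∣ M) :
    ih4Hecke0 O M (CuspForm.heckeAlgebra.T hl hlM (Set.notMem_empty l)) = ih4Op O M l := by
  rw [ih4Op_of_not_dvd O M hl hlM]
  refine LinearMap.ext fun φ => ?_
  rw [ih4Hecke0_apply, tdmHecke_T, tdmBC_homPar, LinearEquiv.apply_symm_apply]

theorem ih4Hecke0_U (q : ℕ) (hq : q.Prime) (hqM : q ∣ M) :
    ih4Hecke0 O M (CuspForm.heckeAlgebra.U hq hqM (Set.notMem_empty q)) = ih4Op O M q := by
  rw [ih4Op_of_dvd O M hq hqM]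
  refine LinearMap.ext fun φ => ?_
  rw [ih4Hecke0_apply, tdmHecke_U, tdmBC_homPar, LinearEquiv.apply_symm_apply]

/-- the action of the Hecke algebra away from `S` on `H(M)` -/
def ih4Hecke (S : Set ℕ) : CuspForm.heckeAlgebra M 2 S →+* Module.End O (Ih4H O O M) :=
  (ih4Hecke0 O M).comp
    (Subalgebra.inclusion (heckeAlgebra_mono (Set.empty_subset S))).toRingHom

theorem ih4Hecke_T (S : Set ℕ) (l : ℕ) (hl : l.Prime) (hlM : ¬ l ∣ M) (hlS : l ∉ S) :
    ih4Hecke O M S (CuspForm.heckeAlgebra.T hl hlM hlS) = ih4Op O M l := by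
  rw [← ih4Hecke0_T O M l hl hlM]
  rfl

theorem ih4Hecke_U (S : Set ℕ) (q : ℕ) (hq : q.Prime) (hqM : q ∣ M) (hqS : q ∉ S) :
    ih4Hecke O M S (CuspForm.heckeAlgebra.U hq hqM hqS) = ih4Op O M q := by
  rw [← ih4Hecke0_U O M q hq hqM]
  rfl

/-- the standard generator of the Hecke algebra away from `S` at a prime `ℓ ∉ S`: `U_ℓ` if
`ℓ ∣ M`, `T_ℓ` otherwise -/
def ih4Gen (S : Set ℕ) (l : {l : ℕ // l.Prime ∧ l ∉ S}) : CuspForm.heckeAlgebra M 2 S :=
  if h : l.1 ∣ M then CuspForm.heckeAlgebra.U l.2.1 h l.2.2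
  else CuspForm.heckeAlgebra.T l.2.1 h l.2.2

theorem ih4Hecke_gen (S : Set ℕ) (l : {l : ℕ // l.Prime ∧ l ∉ S}) :
    ih4Hecke O M S (ih4Gen M S l) = ih4Op O M l.1 := by
  unfold ih4Gen
  split_ifs with h
  · exact ih4Hecke_U O M S l.1 l.2.1 h l.2.2
  · exact ih4Hecke_T O M S l.1 l.2.1 h l.2.2

/-- **presentation-style form of the Hecke action** (the target `End_O H(M)` is not commutative,
so the polynomial is evaluated in an arbitrary commutative ring `B` mapping to it, e.g. the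
commutative subalgebra generated by the `ih4Op O M ℓ`): every polynomial relation between the
standard generators of the Prelude Hecke algebra `heckeAlgebra M 2 S` holds for the operators
`ih4Op O M ℓ` on `H(M)`. -/
theorem ih4Hecke_aeval (S : Set ℕ) {B : Type*} [CommRing B]
    (g : B →+* Module.End O (Ih4H O O M)) (y : {l : ℕ // l.Prime ∧ l ∉ S} → B)
    (hy : ∀ l, g (y l) = ih4Op O M l.1) (P : MvPolynomial {l : ℕ // l.Prime ∧ l ∉ S} ℤ) :
    g (MvPolynomial.aeval y P) = ih4Hecke O M S (MvPolynomial.aeval (ih4Gen M S) P) := by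
  have h : g.comp (MvPolynomial.aeval (R := ℤ) y : MvPolynomial _ ℤ →ₐ[ℤ] B).toRingHom
      = (ih4Hecke O M S).comp
        (MvPolynomial.aeval (R := ℤ) (ih4Gen M S) : MvPolynomial _ ℤ →ₐ[ℤ] _).toRingHom := by
    refine MvPolynomial.ringHom_ext (fun r => ?_) (fun l => ?_)
    · simp only [RingHom.comp_apply, AlgHom.toRingHom_eq_coe, RingHom.coe_coe,
        MvPolynomial.aeval_C, eq_intCast, map_intCast]
    · simp only [RingHom.comp_apply, AlgHom.toRingHom_eq_coe, RingHom.coe_coe,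
        MvPolynomial.aeval_X]
      rw [hy, ih4Hecke_gen]
  exact congrArg (fun f => f P) h

theorem ih4_relation (S : Set ℕ) {B : Type*} [CommRing B]
    (g : B →+* Module.End O (Ih4H O O M)) (y : {l : ℕ // l.Prime ∧ l ∉ S} → B)
    (hy : ∀ l, g (y l) = ih4Op O M l.1) (P : MvPolynomial {l : ℕ // l.Prime ∧ l ∉ S} ℤ)
    (hP : MvPolynomial.aeval (ih4Gen M S) P = 0) :
    g (MvPolynomial.aeval y P) = 0 := by
  rw [ih4Hecke_aeval O M S g y hy, hP, map_zero]

/-- the standard generators generate the Hecke algebra away from `S` -/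
theorem ih4Gen_adjoin (S : Set ℕ) :
    Algebra.adjoin ℤ (Set.range (ih4Gen M S)) = ⊤ := by
  rw [eq_top_iff]
  rintro ⟨t, ht⟩ -
  have hle : CuspForm.heckeAlgebra M 2 S
      ≤ (Algebra.adjoin ℤ (Set.range (ih4Gen M S))).map (CuspForm.heckeAlgebra M 2 S).val := by
    refine Algebra.adjoin_le ?_
    rintro T (⟨l, hl, hlN, hlS, rfl⟩ | ⟨q, hqN, hq, hqS, rfl⟩)
    · refine ⟨CuspForm.heckeAlgebra.T hl hlN hlS, Algebra.subset_adjoin ⟨⟨l, hl, hlS⟩, ?_⟩, rfl⟩
      unfold ih4Gen
      rw [dif_neg hlN]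
    · refine ⟨CuspForm.heckeAlgebra.U hq hqN hqS, Algebra.subset_adjoin ⟨⟨q, hq, hqS⟩, ?_⟩, rfl⟩
      unfold ih4Gen
      rw [dif_pos hqN]
  obtain ⟨t', ht', h⟩ := hle ht
  have : t' = ⟨t, ht⟩ := Subtype.ext h
  rw [← this]
  exact ht'

/-- every element of the Hecke algebra away from `S` is a polynomial in the standard generators -/
theorem ih4Gen_surjective (S : Set ℕ) :
    Function.Surjective (MvPolynomial.aeval (R := ℤ) (ih4Gen M S)) := by
  intro t
  have h : t ∈ Algebra.adjoin ℤ (Set.range (ih4Gen M S)) := by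
    rw [ih4Gen_adjoin]; exact Algebra.mem_top
  rw [Algebra.adjoin_range_eq_range_aeval] at h
  exact h

/-- **the Hecke algebra is presented by its standard generators**: a family `x` in a commutative
ring satisfying all the polynomial relations of the standard generators defines a ring hom. -/
theorem ih4Gen_lift (S : Set ℕ) {A : Type*} [CommRing A] (x : {l : ℕ // l.Prime ∧ l ∉ S} → A)
    (hx : ∀ P : MvPolynomial {l : ℕ // l.Prime ∧ l ∉ S} ℤ,
      MvPolynomial.aeval (ih4Gen M S) P = 0 → MvPolynomial.aeval x P = 0) :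
    ∃ f : CuspForm.heckeAlgebra M 2 S →+* A, ∀ l, f (ih4Gen M S l) = x l := by
  classical
  let a : MvPolynomial {l : ℕ // l.Prime ∧ l ∉ S} ℤ →+* CuspForm.heckeAlgebra M 2 S :=
    (MvPolynomial.aeval (R := ℤ) (ih4Gen M S) : MvPolynomial _ ℤ →ₐ[ℤ] _).toRingHom
  let b : MvPolynomial {l : ℕ // l.Prime ∧ l ∉ S} ℤ →+* A :=
    (MvPolynomial.aeval (R := ℤ) x : MvPolynomial _ ℤ →ₐ[ℤ] A).toRingHom
  have ha : Function.Surjective a := ih4Gen_surjective M S
  have hk : RingHom.ker a ≤ RingHom.ker b := fun P hP => by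
    rw [RingHom.mem_ker] at hP ⊢
    exact hx P hP
  refine ⟨a.liftOfSurjective ha ⟨b, hk⟩, fun l => ?_⟩
  have h1 : a (MvPolynomial.X l) = ih4Gen M S l := by
    simp only [a, AlgHom.toRingHom_eq_coe, RingHom.coe_coe, MvPolynomial.aeval_X]
  have h2 : b (MvPolynomial.X l) = x l := by
    simp only [b, AlgHom.toRingHom_eq_coe, RingHom.coe_coe, MvPolynomial.aeval_X]
  rw [← h1, ← h2]
  exact RingHom.liftOfRightInverse_comp_apply a _ (Function.rightInverse_surjInv ha) ⟨b, hk⟩ _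

end

end Fermat.Agent.Ihara
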